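import Mathlib
import Fermat.Agent.GalRep.JacInput
import Fermat.Agent.GalRep.HeckeLat
import Fermat.Agent.AJlib.KummerCharDef
import Fermat.Agent.AJlib.BcF
import Fermat.Agent.AJlib.Kummer
import Fermat.Agent.AJlib.CountDefs
import Fermat.Agent.AJlib.RootsOfUnityChar
import Fermat.Agent.S24lib.Dist

/-!
# Layer E (items 69/72): Hecke equivariance of the level structures — shared definitions

* `HasTorsionChar N n x χ`: `x = [D] ∈ J₀(N)` with `n D = div f` and the analytic `n`-th root of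
  `f` has character `χ`.
* `normBeta N ℓ f = Norm_α (β f)`: the Hecke correspondence on functions.
* `IsReps N ℓ γ`: `γ : X → Γ₀(N)` is a system of representatives of `Γ₀(Nℓ) \ Γ₀(N)`.
* `latChar N n φ`: the character `γ ↦ exp(2πi φ(γ)/n)`.

Definitions only.  Blueprint: `NOTES/LAYERE_blueprint.md`.
-/

set_option autoImplicit false
open scoped MatrixGroups ModularForm Manifold Topology TensorProduct
open UpperHalfPlane ModularForm CongruenceSubgroup Filter AlgebraicCurve ModularCurve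
open Fermat.Agent.S24lib Fermat.Agent.AJlib Fermat.Agent.S22lib

namespace Fermat.Agent.LatE

open Fermat.Agent.GalRep

/-- `x ∈ J₀(N)` is the class of `D` with `n D = div f` and the analytic `n`-th root of `f` has
character `χ`. -/
def HasTorsionChar (N n : ℕ) [NeZero N] (x : JZero N) (χ : ↥(Gamma0 N) →* ℂˣ) : Prop :=
  ∃ (D : Divisor.degZero (K := Kbar) (F := FF N)) (f : FF N), f ≠ 0 ∧ x = Pic0.mk D ∧
    (∀ v : Place Kbar (FF N), (n : ℤ) * (D : Divisor Kbar (FF N)) v = v.ord f) ∧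
    IsKummerChar N n (bcF N f) χ

/-- `Norm_α (β f)`: the Hecke correspondence on functions -/
noncomputable def normBeta (N ℓ : ℕ) [NeZero N] [NeZero ℓ] (f : FF N) : FF N :=
  letI := algebraAlong (heckeAlphaBar Kbar N ℓ)
  Algebra.norm (FF N) (heckeBetaBar Kbar N ℓ f)

/-- `γ : X → Γ₀(N)` is a system of representatives of `Γ₀(Nℓ) \ Γ₀(N)` -/
def IsReps (N ℓ : ℕ) {X : Type} (γ : X → Gamma0 N) : Prop :=
  ∀ g : Gamma0 N, ∃! x : X, ((N * ℓ : ℕ) : ℤ) ∣ ((g * (γ x)⁻¹ : Gamma0 N) : SL(2, ℤ)) 1 0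

/-- the character `γ ↦ exp(2πi φ(γ)/n)` of a homomorphism `φ : Γ₀(N) → ℤ` -/
noncomputable def latChar (N n : ℕ) (φ : Additive (Gamma0 N) →+ ℤ) : ↥(Gamma0 N) →* ℂˣ :=
  (zpowersHom ℂˣ (zetaUnit n)).comp (AddMonoidHom.toMultiplicativeRight φ)

theorem latChar_apply (N n : ℕ) (φ : Additive (Gamma0 N) →+ ℤ) (γ : Gamma0 N) :
    latChar N n φ γ = zetaUnit n ^ (φ (Additive.ofMul γ)) := rfl

end Fermat.Agent.LatE
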