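/-
Layer E, piece LE-E (= T2 of item 69): "Form L" — the torsion of `J₀(N)` is described by the
characters of the lattice `HLat N`: `HasTorsionChar N n x χ` is the graph of an isomorphism
`J₀(N)[n] ≅ {unramified characters killed by n} = latChar (HLat N / n)`.  (helper22)
-/
import Mathlib
import Fermat.Agent.LatE.Defs
import Fermat.Agent.AJlib.T1

set_option autoImplicit false
open scoped MatrixGroups ModularForm Manifold Topology TensorProduct
open UpperHalfPlane ModularForm CongruenceSubgroup Filter AlgebraicCurve ModularCurve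
open Fermat.Agent.S24lib Fermat.Agent.AJlib Fermat.Agent.S22lib

namespace Fermat.Agent.LatE

open Fermat.Agent.GalRep

/-! ### `HasTorsionChar` in terms of the two homomorphisms `kumHom` and `charHom` -/

section graph

variable {N n : ℕ} [NeZero N]

/-- the Kummer character homomorphism on `U_n(FF N)` -/
noncomputable def fl_char (hn : 0 < n) : Un Kbar (FF N) n →* (↥(Gamma0 N) →* ℂˣ) :=
  (kummerInputs N n hn).charHom

/-- the Kummer class homomorphism `U_n(FF N) → J₀(N)[n]` -/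
noncomputable def fl_kum (hn : 0 < n) :
    Un Kbar (FF N) n →* Multiplicative (Pic0.torsion Kbar (FF N) n) :=
  haveI := hasPrincipalDivisors_FF N
  kumHom (K := Kbar) (F := FF N) hn

lemma fl_char_spec (hn : 0 < n) (f : Un Kbar (FF N) n) :
    IsKummerChar N n (bcF N ((f : (FF N)ˣ) : FF N)) (fl_char hn f) :=
  (kummerInputs N n hn).charFun_spec f

lemma fl_char_eq_of (hn : 0 < n) (f : Un Kbar (FF N) n) {χ : ↥(Gamma0 N) →* ℂˣ}
    (h : IsKummerChar N n (bcF N ((f : (FF N)ˣ) : FF N)) χ) : fl_char hn f = χ :=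
  (kummerInputs N n hn).charFun_eq_of f h

lemma fl_char_ker (hn : 0 < n) : (fl_char (N := N) hn).ker = Pn Kbar (FF N) n :=
  (kummerInputs N n hn).charHom_ker hn

lemma fl_char_range (hn : 0 < n) : (fl_char (N := N) hn).range = UnramHomTors N n :=
  (kummerInputs N n hn).charHom_range

lemma fl_kum_ker (hn : 0 < n) : (fl_kum (N := N) hn).ker = Pn Kbar (FF N) n := by
  haveI := hasPrincipalDivisors_FF N
  exact kumHom_ker (const_of_ord_eq_zero_FF N) hn

lemma fl_kum_surjective (hn : 0 < n) : Function.Surjective (fl_kum (N := N) hn) := by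
  haveI := hasPrincipalDivisors_FF N
  exact kumHom_surjective hn

lemma fl_kum_coe (hn : 0 < n) (f : Un Kbar (FF N) n) :
    ((Multiplicative.toAdd (fl_kum hn f) : Pic0.torsion Kbar (FF N) n) : Pic0 Kbar (FF N))
      = Pic0.mk (haveI := hasPrincipalDivisors_FF N; kumDiv hn f) := rfl

/-- `HasTorsionChar` is the graph of `fl_kum` and `fl_char` -/
theorem hasTorsionChar_iff (hn : 0 < n) (x : JZero N) (χ : ↥(Gamma0 N) →* ℂˣ) :
    HasTorsionChar N n x χ ↔ ∃ f : Un Kbar (FF N) n,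
      ((Multiplicative.toAdd (fl_kum hn f) : Pic0.torsion Kbar (FF N) n) : Pic0 Kbar (FF N)) = x ∧
        fl_char hn f = χ := by
  haveI := hasPrincipalDivisors_FF N
  constructor
  · rintro ⟨D, f, hf0, rfl, hD, hχ⟩
    have hfU : Units.mk0 f hf0 ∈ Un Kbar (FF N) n := by
      intro v
      rw [Units.val_mk0, ← hD v]
      exact dvd_mul_right _ _
    refine ⟨⟨Units.mk0 f hf0, hfU⟩, ?_, fl_char_eq_of hn _ hχ⟩
    rw [fl_kum_coe]
    congr 1
    exact kumDiv_eq_of hn _ D hD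
  · rintro ⟨f, rfl, rfl⟩
    exact ⟨kumDiv hn f, ((f : (FF N)ˣ) : FF N), Units.ne_zero _, rfl, kumDiv_apply hn f,
      fl_char_spec hn f⟩

end graph

/-! ### formal properties -/

theorem hasTorsionChar_torsion (N n : ℕ) [NeZero N] (hn : 0 < n) (x : JZero N)
    (χ : ↥(Gamma0 N) →* ℂˣ) (h : HasTorsionChar N n x χ) : n • x = 0 := by
  obtain ⟨f, rfl, -⟩ := (hasTorsionChar_iff hn x χ).1 h
  have h1 := (Multiplicative.toAdd (fl_kum hn f) : Pic0.torsion Kbar (FF N) n).2
  rw [Pic0.mem_torsion] at h1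
  rw [← natCast_zsmul]
  exact h1

/-- `fl_kum` and `fl_char` have the same kernel -/
lemma fl_kum_eq_iff {N n : ℕ} [NeZero N] (hn : 0 < n) (f g : Un Kbar (FF N) n) :
    fl_kum hn f = fl_kum hn g ↔ fl_char hn f = fl_char hn g := by
  have h1 : fl_kum hn f = fl_kum hn g ↔ f⁻¹ * g ∈ (fl_kum (N := N) hn).ker := by
    rw [MonoidHom.mem_ker, map_mul, map_inv, inv_mul_eq_one]
  have h2 : fl_char hn f = fl_char hn g ↔ f⁻¹ * g ∈ (fl_char (N := N) hn).ker := by
    rw [MonoidHom.mem_ker, map_mul, map_inv, inv_mul_eq_one]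
  rw [h1, h2, fl_kum_ker, fl_char_ker]

lemma fl_kum_eq_of_coe {N n : ℕ} [NeZero N] (hn : 0 < n) (f g : Un Kbar (FF N) n)
    (h : ((Multiplicative.toAdd (fl_kum hn f) : Pic0.torsion Kbar (FF N) n) : Pic0 Kbar (FF N))
      = ((Multiplicative.toAdd (fl_kum hn g) : Pic0.torsion Kbar (FF N) n) : Pic0 Kbar (FF N))) :
    fl_kum hn f = fl_kum hn g :=
  Multiplicative.toAdd.injective (Subtype.ext h)

theorem hasTorsionChar_unique (N n : ℕ) [NeZero N] (hn : 0 < n) (x : JZero N)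
    (χ χ' : ↥(Gamma0 N) →* ℂˣ) (h : HasTorsionChar N n x χ) (h' : HasTorsionChar N n x χ') :
    χ = χ' := by
  obtain ⟨f, hf, rfl⟩ := (hasTorsionChar_iff hn x χ).1 h
  obtain ⟨g, hg, rfl⟩ := (hasTorsionChar_iff hn x χ').1 h'
  exact (fl_kum_eq_iff hn f g).1 (fl_kum_eq_of_coe hn f g (hf.trans hg.symm))

theorem hasTorsionChar_add (N n : ℕ) [NeZero N] (hn : 0 < n) (x y : JZero N)
    (χ χ' : ↥(Gamma0 N) →* ℂˣ) (h : HasTorsionChar N n x χ) (h' : HasTorsionChar N n y χ') :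
    HasTorsionChar N n (x + y) (χ * χ') := by
  obtain ⟨f, rfl, rfl⟩ := (hasTorsionChar_iff hn x χ).1 h
  obtain ⟨g, rfl, rfl⟩ := (hasTorsionChar_iff hn y χ').1 h'
  refine (hasTorsionChar_iff hn _ _).2 ⟨f * g, ?_, map_mul _ _ _⟩
  rw [map_mul]
  rfl

theorem hasTorsionChar_eq_zero (N n : ℕ) [NeZero N] (hn : 0 < n) (x : JZero N)
    (h : HasTorsionChar N n x 1) : x = 0 := by
  obtain ⟨f, rfl, hf⟩ := (hasTorsionChar_iff hn x 1).1 h
  have h1 : f ∈ (fl_kum (N := N) hn).ker := by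
    rw [fl_kum_ker, ← fl_char_ker hn]
    exact hf
  rw [MonoidHom.mem_ker] at h1
  rw [h1]
  rfl

/-! ### the lattice -/

/-- `latChar` takes values in the unramified characters killed by `n` -/
theorem latChar_mem_tors (N n : ℕ) [NeZero N] (hn : 0 < n) (φ : HLat N) :
    latChar N n φ.1 ∈ UnramHomTors N n := by
  haveI : NeZero n := ⟨hn.ne'⟩
  obtain ⟨χ, hχ⟩ := exists_latHom_eq_of_parabolic N φ.1 φ.2
  refine ⟨fun γ h => ?_, ?_⟩
  · rw [latChar_apply, ← hχ, latHom_unram N χ γ h, zpow_zero]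
  · refine MonoidHom.ext (fun γ => ?_)
    rw [MonoidHom.pow_apply, latChar_apply, ← zpow_natCast, ← zpow_mul, mul_comm, zpow_mul,
      zpow_natCast, zetaUnit_pow, one_zpow]
    rfl

/-- every unramified character killed by `n` comes from the lattice -/
theorem exists_latChar_eq (N n : ℕ) [NeZero N] (hn : 0 < n) (χ : ↥(Gamma0 N) →* ℂˣ)
    (hχ : χ ∈ UnramHomTors N n) : ∃ φ : HLat N, latChar N n φ.1 = χ := by
  haveI : NeZero n := ⟨hn.ne'⟩
  obtain ⟨hχu, hχn⟩ := hχ
  -- values in `ℤ/n`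
  have hex : ∀ γ : ↥(Gamma0 N), ∃ a : Multiplicative (ZMod n), zmodToUnits n a = χ γ := by
    intro γ
    apply exists_zmodToUnits_eq
    have := congrArg (fun φ : ↥(Gamma0 N) →* ℂˣ => φ γ) hχn
    simpa using this
  choose a ha using hex
  have ha1 : a 1 = 1 := by
    apply zmodToUnits_injective n
    rw [ha, map_one, map_one]
  have hamul : ∀ x y, a (x * y) = a x * a y := by
    intro x y
    apply zmodToUnits_injective n
    rw [ha, map_mul, map_mul, ha, ha]
  let χ₁ : ↥(Gamma0 N) →* Multiplicative (ZMod n) :=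
    { toFun := a, map_one' := ha1, map_mul' := hamul }
  have hχ₁ : χ₁ ∈ UnramHom N (Multiplicative (ZMod n)) := by
    intro γ h
    apply zmodToUnits_injective n
    show zmodToUnits n (a γ) = _
    rw [ha, hχu γ h, map_one]
  obtain ⟨ψ, hψ⟩ := redMod_surjective N n hn ⟨χ₁, hχ₁⟩
  refine ⟨⟨latHom N (Additive.ofMul ψ), fun γ hγ => ?_⟩, ?_⟩
  · apply latHom_unram
    have h1 : |((γ : SL(2, ℤ)) : Matrix (Fin 2) (Fin 2) ℤ).trace| ^ 2 = 2 ^ 2 := by
      rw [sq_abs, hγ]
      norm_num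
    have h2 := abs_eq_abs.1 ((sq_eq_sq_iff_abs_eq_abs _ _).1 h1)
    rcases h2 with h2 | h2
    · rw [h2]
    · rw [h2]
      norm_num
  · refine MonoidHom.ext (fun γ => ?_)
    rw [latChar_apply, ← ha γ]
    have h1 : a γ = (redMod N n ψ).1 γ := by
      rw [hψ]
      rfl
    rw [h1, zmodToUnits_apply]
    show zetaUnit n ^ (Multiplicative.toAdd (ψ.1 γ)) = _
    have h2 : Multiplicative.toAdd ((redMod N n ψ).1 γ)
        = ((Multiplicative.toAdd (ψ.1 γ) : ℤ) : ZMod n) := rfl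
    rw [h2]
    set k : ℤ := Multiplicative.toAdd (ψ.1 γ) with hk
    have h3 : ((((k : ZMod n)).val : ℕ) : ℤ) = k % (n : ℤ) := by
      rw [ZMod.val_intCast]
    have h4 : zetaUnit n ^ k = zetaUnit n ^ (k % (n : ℤ)) := by
      have h5 : k = k % (n : ℤ) + (n : ℤ) * (k / (n : ℤ)) := (Int.emod_add_mul_ediv k n).symm
      conv_lhs => rw [h5]
      rw [zpow_add, zpow_mul, zpow_natCast, zetaUnit_pow, one_zpow, mul_one]
    rw [h4, ← h3, zpow_natCast]

theorem hasTorsionChar_exists (N n : ℕ) [NeZero N] (hn : 0 < n) (x : JZero N) (hx : n • x = 0) :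
    ∃ φ : HLat N, HasTorsionChar N n x (latChar N n φ.1) := by
  have hx' : x ∈ Pic0.torsion Kbar (FF N) n := by
    rw [Pic0.mem_torsion, natCast_zsmul]
    exact hx
  obtain ⟨f, hf⟩ := fl_kum_surjective hn (Multiplicative.ofAdd ⟨x, hx'⟩)
  have hmem : fl_char hn f ∈ UnramHomTors N n := by
    rw [← fl_char_range hn]
    exact ⟨f, rfl⟩
  obtain ⟨φ, hφ⟩ := exists_latChar_eq N n hn _ hmem
  refine ⟨φ, (hasTorsionChar_iff hn _ _).2 ⟨f, ?_, hφ.symm⟩⟩
  rw [hf]
  rfl

theorem hasTorsionChar_surj (N n : ℕ) [NeZero N] (hn : 0 < n) (φ : HLat N) :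
    ∃ x : JZero N, HasTorsionChar N n x (latChar N n φ.1) := by
  have hmem := latChar_mem_tors N n hn φ
  rw [← fl_char_range hn] at hmem
  obtain ⟨f, hf⟩ := hmem
  exact ⟨_, (hasTorsionChar_iff hn _ _).2 ⟨f, rfl, hf⟩⟩

end Fermat.Agent.LatE
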