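/-
Layer E, piece LE-E (part, helper9): multiplication by `m` on the torsion versus the `m`-th power
of the Kummer character.

Main results (namespace `Fermat.Agent.LatE`):
* `isKummerChar_pow_root` : a root of order `n m` with character `χ` gives a root of order `n`
  with character `χ ^ m`.
* `hasTorsionChar_mul` (exact signature of NOTES/LAYERE_signatures.lean.txt).
No sorry in this file.
-/
import Mathlib
import Fermat.Agent.LatE.Defs

set_option autoImplicit false
open scoped MatrixGroups ModularForm Manifold Topology TensorProduct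
open UpperHalfPlane ModularForm CongruenceSubgroup Filter AlgebraicCurve ModularCurve
open Fermat.Agent.S24lib Fermat.Agent.AJlib Fermat.Agent.S22lib

namespace Fermat.Agent.LatE

open Fermat.Agent.GalRep

/-- the Kummer character of the `m`-th power of a root of order `n m` -/
theorem isKummerChar_pow_root (N n m : ℕ) [NeZero N] (hn : 0 < n) (hm : 0 < m) (f : FC N)
    (χ : ↥(Gamma0 N) →* ℂˣ) (h : IsKummerChar N (n * m) f χ) : IsKummerChar N n f (χ ^ m) := by
  obtain ⟨a, b, G, hb, ha_inv, hb_inv, hf, hG, hG0, hpow, hχ⟩ := h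
  obtain ⟨m', rfl⟩ : ∃ m', m = m' + 1 := ⟨m - 1, by omega⟩
  obtain ⟨n', rfl⟩ : ∃ n', n = n' + 1 := ⟨n - 1, by omega⟩
  refine ⟨a * b ^ m', b ^ (m' + 1), G ^ (m' + 1), pow_ne_zero _ hb, ?_, ?_, ?_, hG.pow _, ?_, ?_,
    ?_⟩
  · intro γ hγ
    rw [smul_mul', smul_pow', ha_inv γ hγ, hb_inv γ hγ]
  · intro γ hγ
    rw [smul_pow', hb_inv γ hγ]
  · rw [map_mul, map_pow, map_pow, ← hf]
    ring
  · intro h0
    apply hG0
    funext z
    have := congrFun h0 z
    simp only [Pi.pow_apply, Pi.zero_apply] at this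
    exact pow_eq_zero_iff (Nat.succ_ne_zero m') |>.mp this
  · intro z
    simp only [Pi.pow_apply, Subring.coe_mul, Subring.coe_pow, Pi.mul_apply, Nat.add_sub_cancel]
    rw [← pow_mul, mul_comm (m' + 1) (n' + 1), hpow z, mul_assoc, ← pow_mul, ← pow_add]
    congr 2
    have : (n' + 1) * (m' + 1) - 1 = n' * m' + n' + m' := by
      have : (n' + 1) * (m' + 1) = n' * m' + n' + m' + 1 := by ring
      omega
    rw [this]
    ring
  · intro γ z
    simp only [Pi.pow_apply]
    rw [hχ γ z, mul_pow]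
    simp

/-- **LE-E (mul).** -/
theorem hasTorsionChar_mul (N n m : ℕ) [NeZero N] (hn : 0 < n) (hm : 0 < m) (x : JZero N)
    (χ : ↥(Gamma0 N) →* ℂˣ) (h : HasTorsionChar N (n * m) x χ) :
    HasTorsionChar N n (m • x) (χ ^ m) := by
  obtain ⟨D, f, hf0, rfl, hD, hχ⟩ := h
  refine ⟨m • D, f, hf0, rfl, ?_, isKummerChar_pow_root N n m hn hm _ χ hχ⟩
  intro v
  have h1 := hD v
  have e : ((m • D : Divisor.degZero (K := Kbar) (F := FF N)) : Divisor Kbar (FF N)) =
      m • (D : Divisor Kbar (FF N)) := rfl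
  rw [e, Finsupp.smul_apply, nsmul_eq_mul, ← h1]
  push_cast
  ring

end Fermat.Agent.LatE
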