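/-
Layer E, piece LE-E (part, helper9): the character `latChar N n φ` is trivial iff `φ ∈ n · HLat N`.

Main result (namespace `Fermat.Agent.LatE`):
* `latChar_eq_one_iff` (exact signature of NOTES/LAYERE_signatures.lean.txt).
No sorry in this file.
-/
import Mathlib
import Fermat.Agent.LatE.Defs

set_option autoImplicit false
open scoped MatrixGroups ModularForm Manifold Topology TensorProduct
open UpperHalfPlane ModularForm CongruenceSubgroup Filter AlgebraicCurve ModularCurve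
open Fermat.Agent.S24lib Fermat.Agent.AJlib Fermat.Agent.S22lib

namespace Fermat.Agent.LatE

open Fermat.Agent.GalRep

/-- `zetaUnit n` is a primitive `n`-th root of unity in `ℂˣ` -/
lemma zetaUnit_isPrimitiveRoot {n : ℕ} (hn : n ≠ 0) : IsPrimitiveRoot (zetaUnit n) n :=
  IsPrimitiveRoot.coe_units_iff.mp (zetaUnit_coe_isPrimitiveRoot hn)

/-- values of `latChar` -/
lemma latChar_apply_eq_one_iff (N n : ℕ) (hn : 0 < n) (φ : Additive (Gamma0 N) →+ ℤ)
    (γ : Gamma0 N) : latChar N n φ γ = 1 ↔ (n : ℤ) ∣ φ (Additive.ofMul γ) := by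
  rw [latChar_apply]
  exact (zetaUnit_isPrimitiveRoot hn.ne').zpow_eq_one_iff_dvd _

theorem latChar_eq_one_iff (N n : ℕ) [NeZero N] (hn : 0 < n) (φ : HLat N) :
    latChar N n φ.1 = 1 ↔ ∃ ψ : HLat N, φ = n • ψ := by
  have hnZ : (n : ℤ) ≠ 0 := by exact_mod_cast hn.ne'
  constructor
  · intro h
    have hdvd : ∀ g : Additive (Gamma0 N), (n : ℤ) ∣ φ.1 g := by
      intro g
      have := congrArg (fun χ : ↥(Gamma0 N) →* ℂˣ => χ (Additive.toMul g)) h
      simp only [MonoidHom.one_apply] at this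
      exact (latChar_apply_eq_one_iff N n hn φ.1 _).mp this
    obtain ⟨ψ₀, hψ₀⟩ : ∃ ψ₀ : Additive (Gamma0 N) →+ ℤ, ∀ g, ψ₀ g = φ.1 g / n :=
      ⟨{ toFun := fun g => φ.1 g / n
         map_zero' := by simp
         map_add' := fun g₁ g₂ => by
           show φ.1 (g₁ + g₂) / n = φ.1 g₁ / n + φ.1 g₂ / n
           rw [map_add]
           exact Int.add_ediv_of_dvd_left (hdvd g₁) }, fun g => rfl⟩
    have hψpar : ψ₀ ∈ ModularCurve.Period.parabolicHoms ℤ (Gamma0 N) ℤ := by
      intro γ hγ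
      rw [hψ₀]
      have : φ.1 (Additive.ofMul γ) = 0 := φ.2 γ hγ
      rw [this]
      simp
    refine ⟨⟨ψ₀, hψpar⟩, ?_⟩
    apply Subtype.ext
    refine AddMonoidHom.ext fun g => ?_
    have e : ((n • (⟨ψ₀, hψpar⟩ : HLat N) : HLat N) : Additive (Gamma0 N) →+ ℤ) = n • ψ₀ := rfl
    rw [e, AddMonoidHom.smul_apply, hψ₀, nsmul_eq_mul]
    exact (Int.mul_ediv_cancel' (hdvd g)).symm
  · rintro ⟨ψ, rfl⟩
    ext γ
    rw [MonoidHom.one_apply]
    have e : ((n • ψ : HLat N) : Additive (Gamma0 N) →+ ℤ) = n • ψ.1 := rfl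
    have : latChar N n (n • ψ).1 γ = 1 := by
      rw [latChar_apply_eq_one_iff N n hn, e, AddMonoidHom.smul_apply, nsmul_eq_mul]
      exact Dvd.intro _ rfl
    rw [this]

end Fermat.Agent.LatE
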