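import Mathlib
import Fermat.Agent.LatE.Defs

/-!
# Layer E, piece LE-A' (helper16): concrete coset data `β x = diag(ℓ,1) · γ x`

`X := Γ₀(N) ⧸ H`, `H = Γ₀(Nℓ) ∩ Γ₀(N)`, `γ x := (out x)⁻¹`, `σ g x := g⁻¹ • x`,
`γ' g x := D (γ x · g · (γ (σ g x))⁻¹) D⁻¹`, `D = diag(ℓ,1)`.
Helper declarations are prefixed `cd`.
-/

set_option autoImplicit false
open scoped MatrixGroups
open CongruenceSubgroup
open Fermat.Agent.S22lib

namespace Fermat.Agent.LatE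

noncomputable section

variable (N ℓ : ℕ)

/-- `Γ₀(Nℓ)` as a subgroup of `Γ₀(N)` -/
def cdH : Subgroup (Gamma0 N) := (Gamma0 (N * ℓ)).subgroupOf (Gamma0 N)

variable {N ℓ}

theorem mem_cdH_iff (h : Gamma0 N) :
    h ∈ cdH N ℓ ↔ ((N * ℓ : ℕ) : ℤ) ∣ ((h : Gamma0 N) : SL(2, ℤ)) 1 0 := by
  rw [cdH, Subgroup.mem_subgroupOf, Gamma0_mem, ZMod.intCast_zmod_eq_zero_iff_dvd]

instance cdH_finiteIndex [NeZero N] [NeZero ℓ] : (cdH N ℓ).FiniteIndex := by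
  have : NeZero (N * ℓ) := ⟨Nat.mul_ne_zero (NeZero.ne N) (NeZero.ne ℓ)⟩
  unfold cdH
  infer_instance

variable (N ℓ)

/-- the index set `Γ₀(N) ⧸ Γ₀(Nℓ)` -/
abbrev cdX : Type := Gamma0 N ⧸ cdH N ℓ

/-- the representatives -/
def cdRep (x : cdX N ℓ) : Gamma0 N := (Quotient.out x)⁻¹

/-- the permutations -/
def cdSigma (g : Gamma0 N) : Equiv.Perm (cdX N ℓ) := MulAction.toPerm g⁻¹

variable {N ℓ}

theorem cdSigma_mul (g h : Gamma0 N) (x : cdX N ℓ) :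
    cdSigma N ℓ (g * h) x = cdSigma N ℓ h (cdSigma N ℓ g x) := by
  simp only [cdSigma, MulAction.toPerm_apply, mul_inv_rev, mul_smul]

theorem cd_isReps : IsReps N ℓ (cdRep N ℓ) := by
  intro g
  refine ⟨QuotientGroup.mk g⁻¹, ?_, ?_⟩
  · show ((N * ℓ : ℕ) : ℤ) ∣ ((g * (cdRep N ℓ (QuotientGroup.mk g⁻¹))⁻¹ : Gamma0 N) : SL(2, ℤ)) 1 0
    rw [← mem_cdH_iff, cdRep, inv_inv]
    have h1 : (QuotientGroup.mk (Quotient.out (QuotientGroup.mk g⁻¹ : cdX N ℓ)) : cdX N ℓ)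
        = QuotientGroup.mk g⁻¹ := Quotient.out_eq _
    rw [QuotientGroup.eq] at h1
    have h2 := (cdH N ℓ).inv_mem h1
    rwa [mul_inv_rev, inv_inv, inv_inv] at h2
  · intro y hy
    have hy' : g * (cdRep N ℓ y)⁻¹ ∈ cdH N ℓ := (mem_cdH_iff _).mpr hy
    rw [cdRep, inv_inv] at hy'
    have h3 : (Quotient.out y)⁻¹ * g⁻¹ ∈ cdH N ℓ := by
      have := (cdH N ℓ).inv_mem hy'
      rwa [mul_inv_rev] at this
    rw [← Quotient.out_eq y]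
    exact (QuotientGroup.eq.mpr h3)

/-- `γ x · g · (γ (σ g x))⁻¹ ∈ Γ₀(Nℓ)` -/
theorem cd_mem (g : Gamma0 N) (x : cdX N ℓ) :
    cdRep N ℓ x * g * (cdRep N ℓ (cdSigma N ℓ g x))⁻¹ ∈ cdH N ℓ := by
  rw [cdRep, cdRep, inv_inv, cdSigma, MulAction.toPerm_apply]
  have h1 : (QuotientGroup.mk (Quotient.out (g⁻¹ • x)) : cdX N ℓ)
      = QuotientGroup.mk (g⁻¹ * Quotient.out x) := by
    have e1 : (QuotientGroup.mk (Quotient.out (g⁻¹ • x)) : cdX N ℓ) = g⁻¹ • x :=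
      Quotient.out_eq _
    have e2 : (QuotientGroup.mk (Quotient.out x) : cdX N ℓ) = x := Quotient.out_eq _
    rw [e1]
    conv_lhs => rw [← e2]
    rfl
  rw [QuotientGroup.eq] at h1
  have h2 := (cdH N ℓ).inv_mem h1
  rw [mul_inv_rev, inv_inv, mul_inv_rev, inv_inv] at h2
  exact h2

/-- conjugation by `D = diag(ℓ,1)`: `[[a,b],[c,d]] ↦ [[a, ℓ b],[c/ℓ, d]]` -/
def cdConjSL (ℓ : ℕ) (g : SL(2, ℤ)) (hg : (ℓ : ℤ) ∣ g 1 0) : SL(2, ℤ) :=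
  ⟨!![g 0 0, ℓ * g 0 1; g 1 0 / ℓ, g 1 1], by
    have hdet := g.det_coe
    rw [Matrix.det_fin_two] at hdet
    rw [Matrix.det_fin_two_of]
    have h1 : (ℓ : ℤ) * g 0 1 * (g 1 0 / ℓ) = g 0 1 * g 1 0 := by
      rw [mul_comm (ℓ : ℤ), mul_assoc, Int.mul_ediv_cancel' hg]
    rw [h1]
    exact hdet⟩

theorem cdConjSL_val (ℓ : ℕ) (g : SL(2, ℤ)) (hg : (ℓ : ℤ) ∣ g 1 0) :
    ((cdConjSL ℓ g hg : SL(2, ℤ)) : Matrix (Fin 2) (Fin 2) ℤ)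
      = !![g 0 0, ℓ * g 0 1; g 1 0 / ℓ, g 1 1] := rfl

theorem cdConjSL_rel (ℓ : ℕ) [NeZero ℓ] (g : SL(2, ℤ)) (hg : (ℓ : ℤ) ∣ g 1 0) :
    ModularForm.heckeDiagMatrix ℓ * Matrix.SpecialLinearGroup.mapGL ℝ g
      = Matrix.SpecialLinearGroup.mapGL ℝ (cdConjSL ℓ g hg) * ModularForm.heckeDiagMatrix ℓ := by
  have hℓ : ℓ ≠ 0 := NeZero.ne ℓ
  have hc : (((g 1 0 / (ℓ : ℤ) : ℤ)) : ℝ) * (ℓ : ℝ) = ((g 1 0 : ℤ) : ℝ) := by
    have := Int.ediv_mul_cancel hg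
    exact_mod_cast this
  apply Units.ext
  rw [Units.val_mul, Units.val_mul, ModularForm.val_heckeDiagMatrix hℓ]
  ext i j
  fin_cases i <;> fin_cases j <;>
    simp [Matrix.mul_apply, Fin.sum_univ_two, cdConjSL_val, hc, mul_comm]

theorem cd_dvd_of_mem {h : Gamma0 N} (hh : h ∈ cdH N ℓ) :
    (ℓ : ℤ) ∣ ((h : Gamma0 N) : SL(2, ℤ)) 1 0 := by
  have := (mem_cdH_iff h).mp hh
  refine dvd_trans ?_ this
  exact ⟨N, by push_cast; ring⟩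

/-- conjugation by `D` maps `Γ₀(Nℓ)` into `Γ₀(N)` -/
def cdConj [NeZero ℓ] (h : Gamma0 N) (hh : h ∈ cdH N ℓ) : Gamma0 N :=
  ⟨cdConjSL ℓ (h : SL(2, ℤ)) (cd_dvd_of_mem hh), by
    rw [Gamma0_mem, ZMod.intCast_zmod_eq_zero_iff_dvd, cdConjSL_val]
    show (N : ℤ) ∣ ((h : Gamma0 N) : SL(2, ℤ)) 1 0 / ℓ
    obtain ⟨c, hc⟩ := (mem_cdH_iff h).mp hh
    have hℓ : (ℓ : ℤ) ≠ 0 := by exact_mod_cast NeZero.ne ℓ
    refine ⟨c, ?_⟩
    rw [hc]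
    push_cast
    rw [mul_comm (N : ℤ) (ℓ : ℤ), mul_assoc, Int.mul_ediv_cancel_left _ hℓ]⟩

theorem cdConj_rel [NeZero ℓ] (h : Gamma0 N) (hh : h ∈ cdH N ℓ) :
    ModularForm.heckeDiagMatrix ℓ * gamma0Hom N h
      = gamma0Hom N (cdConj h hh) * ModularForm.heckeDiagMatrix ℓ :=
  cdConjSL_rel ℓ (h : SL(2, ℤ)) (cd_dvd_of_mem hh)

variable (N ℓ) in
/-- the elements `γ'(g, x)` -/
def cdGamma' [NeZero ℓ] (g : Gamma0 N) (x : cdX N ℓ) : Gamma0 N :=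
  cdConj _ (cd_mem g x)

/-- the coset relation `D γ_x g = γ'(g,x) D γ_{σ_g x}` -/
theorem cd_rel [NeZero ℓ] (g : Gamma0 N) (x : cdX N ℓ) :
    ModularForm.heckeDiagMatrix ℓ * gamma0Hom N (cdRep N ℓ x) * gamma0Hom N g =
      gamma0Hom N (cdGamma' N ℓ g x)
        * (ModularForm.heckeDiagMatrix ℓ * gamma0Hom N (cdRep N ℓ (cdSigma N ℓ g x))) := by
  rw [cdGamma', ← mul_assoc, ← cdConj_rel, mul_assoc, mul_assoc, ← map_mul, ← map_mul,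
    inv_mul_cancel_right]

variable (N ℓ) in
/-- the coset representatives `β x = D · γ x` of `Γ₀(N) \ Γ₀(N) D Γ₀(N)` -/
def cdBeta (x : cdX N ℓ) : GL (Fin 2) ℝ :=
  ModularForm.heckeDiagMatrix ℓ * gamma0Hom N (cdRep N ℓ x)

theorem cd_rel' [NeZero ℓ] (g : Gamma0 N) (x : cdX N ℓ) :
    cdBeta N ℓ x * gamma0Hom N g
      = gamma0Hom N (cdGamma' N ℓ g x) * cdBeta N ℓ (cdSigma N ℓ g x) :=
  cd_rel g x

/-- every `D δ` lies in one of the cosets -/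
theorem cd_exists [NeZero ℓ] (δ : Gamma0 N) :
    ∃ (x : cdX N ℓ) (δ' : Gamma0 N),
      ModularForm.heckeDiagMatrix ℓ * gamma0Hom N δ = gamma0Hom N δ' * cdBeta N ℓ x := by
  obtain ⟨x, hx, -⟩ := cd_isReps (N := N) (ℓ := ℓ) δ
  have hmem : δ * (cdRep N ℓ x)⁻¹ ∈ cdH N ℓ := (mem_cdH_iff _).mpr hx
  refine ⟨x, cdConj _ hmem, ?_⟩
  rw [cdBeta, ← mul_assoc, ← cdConj_rel, mul_assoc, ← map_mul, inv_mul_cancel_right]

/-- the cosets are pairwise distinct -/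
theorem cd_uniq [NeZero ℓ] (a b : Gamma0 N) (y z : cdX N ℓ)
    (h : gamma0Hom N a * cdBeta N ℓ y = gamma0Hom N b * cdBeta N ℓ z) : y = z := by
  have hℓ : ℓ ≠ 0 := NeZero.ne ℓ
  -- `D · u = w · D` with `u = γ_y γ_z⁻¹`, `w = a⁻¹ b`
  set u : Gamma0 N := cdRep N ℓ y * (cdRep N ℓ z)⁻¹ with hu
  set w : Gamma0 N := a⁻¹ * b with hw
  have h1 : ModularForm.heckeDiagMatrix ℓ * gamma0Hom N u
      = gamma0Hom N w * ModularForm.heckeDiagMatrix ℓ := by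
    rw [cdBeta, cdBeta] at h
    rw [hu, hw, map_mul, map_mul, map_inv, map_inv]
    have h2 : ModularForm.heckeDiagMatrix ℓ * gamma0Hom N (cdRep N ℓ y)
        = (gamma0Hom N a)⁻¹ * (gamma0Hom N b
          * (ModularForm.heckeDiagMatrix ℓ * gamma0Hom N (cdRep N ℓ z))) := by
      rw [← h, inv_mul_cancel_left]
    rw [← mul_assoc, h2]
    group
  have h3 := congrArg (fun M : GL (Fin 2) ℝ => (M : Matrix (Fin 2) (Fin 2) ℝ) 1 0) h1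
  simp only [Units.val_mul, ModularForm.val_heckeDiagMatrix hℓ, gamma0Hom_apply] at h3
  simp [Matrix.mul_apply, Fin.sum_univ_two] at h3
  have h4 : ((u : Gamma0 N) : SL(2, ℤ)) 1 0 = ((w : Gamma0 N) : SL(2, ℤ)) 1 0 * ℓ := by
    exact_mod_cast h3
  have h5 : ((N * ℓ : ℕ) : ℤ) ∣ ((u : Gamma0 N) : SL(2, ℤ)) 1 0 := by
    rw [h4]
    push_cast
    exact mul_dvd_mul_right (gamma0_dvd w) _
  obtain ⟨x, -, hx⟩ := cd_isReps (N := N) (ℓ := ℓ) (cdRep N ℓ y)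
  have hy : y = x := hx y (by
    show ((N * ℓ : ℕ) : ℤ) ∣ ((cdRep N ℓ y * (cdRep N ℓ y)⁻¹ : Gamma0 N) : SL(2, ℤ)) 1 0
    rw [mul_inv_cancel]
    simp)
  have hz : z = x := hx z h5
  rw [hy, hz]

instance cdX_fintype [NeZero N] [NeZero ℓ] : Fintype (cdX N ℓ) := Fintype.ofFinite _

/-- **LE-A', core**: the coset data, in the shape of `hlOp` (`S22_Cocycle`/`HeckeLat`):
`α := cdBeta N ℓ`, `σ := cdSigma N ℓ`, `γ' := cdGamma' N ℓ`. -/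
theorem cd_hlOp_apply [NeZero N] [NeZero ℓ] (A : Type*) [AddCommGroup A]
    (φ : Additive (Gamma0 N) →+ A) (g : Gamma0 N) :
    Fermat.Agent.GalRep.hlOp (ι := gamma0Hom N) (α := cdBeta N ℓ) (σ := cdSigma N ℓ)
        (γ' := cdGamma' N ℓ) (gamma0Hom_injective N) cd_rel' cdSigma_mul A φ (Additive.ofMul g)
      = ∑ x, φ (Additive.ofMul (cdGamma' N ℓ g x)) := rfl

end

end Fermat.Agent.LatE
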