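import Mathlib
import Fermat.Agent.LatE.CosetData
import Fermat.Agent.GalRep.HeckeLatT

/-!
# Layer E, piece LE-A' (final): concrete coset data for the transposed Hecke operator

`exists_cosetData`: the coset data `X = Γ₀(N)/Γ₀(Nℓ)`, `β x = diag(ℓ,1) · γ x` of
`LatE/CosetData.lean` compute the transposed Hecke operator `heckeHomTr N ℓ` of
`GalRep/HeckeLatT.lean`.
-/

set_option autoImplicit false

open scoped MatrixGroups ModularForm Manifold Topology TensorProduct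
open UpperHalfPlane ModularForm CongruenceSubgroup Filter AlgebraicCurve ModularCurve
open Fermat.Agent.S24lib Fermat.Agent.AJlib Fermat.Agent.S22lib

namespace Fermat.Agent.LatE

open Fermat.Agent.GalRep

/-- the operator of the coset data `cdBeta` is the transposed Hecke operator. -/
theorem cd_hlOp_eq_heckeHomTr (N : ℕ) [NeZero N] (ℓ : Nat.Primes) [NeZero (ℓ : ℕ)]
    (A : Type*) [AddCommGroup A] :
    hlOp (ι := gamma0Hom N) (α := cdBeta N (ℓ : ℕ)) (σ := cdSigma N (ℓ : ℕ))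
        (γ' := cdGamma' N (ℓ : ℕ)) (gamma0Hom_injective N) cd_rel' cdSigma_mul A
      = heckeHomTr N ℓ A :=
  hlOp_eq_heckeHomTr ℓ (cdBeta N (ℓ : ℕ)) (cdSigma N (ℓ : ℕ)) (cdGamma' N (ℓ : ℕ))
    cd_rel' cdSigma_mul (fun y => ⟨cdRep N (ℓ : ℕ) y, rfl⟩) (fun d => cd_exists d) cd_uniq A

/-- **LE-A'**: concrete coset data for the transposed Hecke operator at `ℓ`. -/
theorem exists_cosetData (N : ℕ) [NeZero N] (ℓ : Nat.Primes) :
    ∃ (X : Type) (_ : Fintype X) (γ : X → Gamma0 N) (σ : Gamma0 N → Equiv.Perm X)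
      (γ' : Gamma0 N → X → Gamma0 N),
      IsReps N ℓ γ ∧
      (∀ (g : Gamma0 N) (x : X),
        heckeDiagMatrix ℓ * gamma0Hom N (γ x) * gamma0Hom N g =
          gamma0Hom N (γ' g x) * (heckeDiagMatrix ℓ * gamma0Hom N (γ (σ g x)))) ∧
      (∀ (g h : Gamma0 N) (x : X), σ (g * h) x = σ h (σ g x)) ∧
      (∀ (A : Type) [AddCommGroup A] (φ : Additive (Gamma0 N) →+ A) (g : Gamma0 N),
        heckeHomTr N ℓ A φ (Additive.ofMul g) = ∑ x, φ (Additive.ofMul (γ' g x))) := by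
  have : NeZero (ℓ : ℕ) := ⟨ℓ.2.ne_zero⟩
  refine ⟨cdX N (ℓ : ℕ), cdX_fintype, cdRep N (ℓ : ℕ), cdSigma N (ℓ : ℕ), cdGamma' N (ℓ : ℕ),
    cd_isReps, fun g x => cd_rel g x, cdSigma_mul, ?_⟩
  intro A _ φ g
  rw [← cd_hlOp_eq_heckeHomTr N ℓ A]
  exact cd_hlOp_apply A φ g

end Fermat.Agent.LatE
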