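/-
Layer E, piece LE-B (helper1): the Hecke correspondence on Kummer classes is `f ↦ Norm_α (β f)`.
-/
import Mathlib
import Fermat.Agent.LatE.Defs

set_option autoImplicit false
open scoped MatrixGroups ModularForm Manifold Topology TensorProduct
open UpperHalfPlane ModularForm CongruenceSubgroup Filter AlgebraicCurve ModularCurve
open Fermat.Agent.S24lib Fermat.Agent.AJlib Fermat.Agent.S22lib

namespace Fermat.Agent.LatE

open Fermat.Agent.GalRep

/-- generic form: the correspondence `ψ_* φ^*` maps a divisor `D` with `n D = div f` to a divisor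
`D'` with `n D' = div (Norm_ψ (φ f))`. -/
theorem kh_correspondence {K F F' : Type*} [Field K] [Field F] [Field F'] [Algebra K F]
    [Algebra K F'] [HasPrincipalDivisors K F']
    (φ ψ : F →ₐ[K] F') (hφ : φ.toRingHom.IsIntegral) (hψ : ψ.toRingHom.IsIntegral)
    (hfin : FiniteAlong K ψ) (hN : NormFormulaAlong K ψ hfin)
    (n : ℕ) (D : Divisor K F) (f : F) (hf : f ≠ 0)
    (hD : ∀ v : Place K F, (n : ℤ) * D v = v.ord f) :
    (letI := algebraAlong ψ; Algebra.norm F (φ f)) ≠ 0 ∧
    ∀ v : Place K F, (n : ℤ) * (Divisor.correspondence φ ψ hφ hψ D) v =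
      v.ord (letI := algebraAlong ψ; Algebra.norm F (φ f)) := by
  letI := algebraAlong ψ
  haveI := isScalarTower_along ψ
  haveI := isIntegral_along ψ hψ
  haveI : Module.Finite F F' := hfin
  have hφf : φ f ≠ 0 := (map_ne_zero φ).mpr hf
  refine ⟨Algebra.norm_ne_zero_iff.mpr hφf, fun v => ?_⟩
  -- the divisor `n • D = div f`
  have hE : ∀ v : Place K F, ((n : ℤ) • D) v = v.ord f := fun v => by
    rw [Finsupp.smul_apply, smul_eq_mul, hD]
  -- its pullback is `div (φ f)`
  have hpull : ∀ w : Place K F', (Divisor.pullbackAlong φ hφ ((n : ℤ) • D)) w = w.ord (φ f) := by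
    intro w
    letI := algebraAlong φ
    haveI := isScalarTower_along φ
    haveI := isIntegral_along φ hφ
    exact Divisor.pullback_apply_eq_ord hE w
  have hpush := hN (φ f) hφf (Divisor.pullbackAlong φ hφ ((n : ℤ) • D)) hpull v
  have hlin : (n : ℤ) • Divisor.correspondence φ ψ hφ hψ D =
      Divisor.pushforwardAlong ψ hψ (Divisor.pullbackAlong φ hφ ((n : ℤ) • D)) := by
    rw [Divisor.correspondence_apply, map_zsmul, map_zsmul]
  have := congrArg (fun E : Divisor K F => E v) hlin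
  simp only [Finsupp.smul_apply, smul_eq_mul] at this
  rw [this]
  exact hpush

theorem kummer_hecke (N ℓ : ℕ) [NeZero N] [NeZero ℓ] (hin : HeckeInputsAlong Kbar N ℓ) (n : ℕ)
    (D : Divisor.degZero (K := Kbar) (F := FF N)) (f : FF N) (hf : f ≠ 0)
    (hD : ∀ v : Place Kbar (FF N), (n : ℤ) * (D : Divisor Kbar (FF N)) v = v.ord f) :
    normBeta N ℓ f ≠ 0 ∧
    ∃ D' : Divisor.degZero (K := Kbar) (F := FF N),
      heckeOperatorAlong Kbar N ℓ (Pic0.mk D) = Pic0.mk D' ∧
      ∀ v : Place Kbar (FF N), (n : ℤ) * (D' : Divisor Kbar (FF N)) v = v.ord (normBeta N ℓ f) := by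
  obtain ⟨hα, hβ, hP, hfin, hFI, hN⟩ := hin
  haveI := hP
  obtain ⟨h1, h2⟩ := kh_correspondence (heckeBetaBar Kbar N ℓ) (heckeAlphaBar Kbar N ℓ) hβ hα
    hfin hN n (D : Divisor Kbar (FF N)) f hf hD
  refine ⟨h1, Pic0.degZeroCorrespondence (heckeBetaBar Kbar N ℓ) (heckeAlphaBar Kbar N ℓ) hβ hα
    hFI D, ?_, fun v => h2 v⟩
  rw [heckeOperatorAlong_eq hα hβ hFI hfin hN]
  rfl

end Fermat.Agent.LatE
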