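import Mathlib
import Fermat.Agent.LatE.Defs
import Fermat.Agent.LatE.KummerHecke
import Fermat.Agent.S37lib.HeckeInputs

/-!
# Layer E, piece LE-F (part 1): Hecke equivariance of the Kummer character

`hasTorsionChar_hecke_of`: if `x` has Kummer character `χ`, then `heckeOperatorBar N ℓ x` has
Kummer character `g ↦ ∏ x, χ (γ' g x)` for any coset data `diag(ℓ,1) γ_x g = γ'(g,x) diag(ℓ,1) γ_{σ x}`,
given the norm–product formula (pieces LE-C, LE-D).
-/

set_option autoImplicit false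
open scoped MatrixGroups ModularForm Manifold Topology TensorProduct
open UpperHalfPlane ModularForm CongruenceSubgroup Filter AlgebraicCurve ModularCurve
open Fermat.Agent.S24lib Fermat.Agent.AJlib Fermat.Agent.S22lib

set_option linter.unusedSectionVars false

namespace Fermat.Agent.LatE

open Fermat.Agent.GalRep

/-- the statement of the pieces LE-C + LE-D (`norm_eq_prod`) for given representatives -/
def NormProdFor (N ℓ : ℕ) [NeZero N] [NeZero ℓ] {X : Type} [Fintype X] (γ : X → Gamma0 N) : Prop :=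
  ∀ (f : FF N) (a b : WH N), b ≠ 0 → (∀ g ∈ Gamma0 N, g • a = a) → (∀ g ∈ Gamma0 N, g • b = b) →
    ιF N f * algebraMap (WH N) (MF N) b = algebraMap (WH N) (MF N) a →
    ∃ A B : WH N, B ≠ 0 ∧ (∀ g ∈ Gamma0 N, g • A = A) ∧ (∀ g ∈ Gamma0 N, g • B = B) ∧
      (∀ z : ℍ, (A : ℍ → ℂ) z = ∏ x, (a : ℍ → ℂ) (nmulH ℓ (((γ x : Gamma0 N) : SL(2, ℤ)) • z))) ∧
      (∀ z : ℍ, (B : ℍ → ℂ) z = ∏ x, (b : ℍ → ℂ) (nmulH ℓ (((γ x : Gamma0 N) : SL(2, ℤ)) • z))) ∧
      ιF N (normBeta N ℓ f) * algebraMap (WH N) (MF N) B = algebraMap (WH N) (MF N) A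

section

variable {N : ℕ} [NeZero N] {ℓ : ℕ} [NeZero ℓ]

theorem lef_heckeDiag_smul (z : ℍ) : heckeDiagMatrix ℓ • z = nmulH ℓ z := by
  apply UpperHalfPlane.ext
  rw [coe_heckeDiagMatrix_smul (NeZero.ne ℓ), coe_nmulH]

theorem lef_gamma0Hom_smul (g : Gamma0 N) (z : ℍ) :
    gamma0Hom N g • z = ((g : Gamma0 N) : SL(2, ℤ)) • z := rfl

theorem lef_delta_smul (g : Gamma0 N) (z : ℍ) :
    (heckeDiagMatrix ℓ * gamma0Hom N g) • z = nmulH ℓ (((g : Gamma0 N) : SL(2, ℤ)) • z) := by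
  rw [mul_smul, lef_heckeDiag_smul, lef_gamma0Hom_smul]

theorem lef_det_pos (g : Gamma0 N) : 0 < (heckeDiagMatrix ℓ * gamma0Hom N g).det.val := by
  have hℓ : (ℓ : ℝ) ≠ 0 := Nat.cast_ne_zero.mpr (NeZero.ne ℓ)
  have h1 : ((heckeDiagMatrix ℓ : GL (Fin 2) ℝ).det : ℝ) = ℓ := by
    rw [Matrix.GeneralLinearGroup.val_det_apply, val_heckeDiagMatrix (NeZero.ne ℓ)]
    simp [Matrix.det_fin_two]
  have h2 : ((gamma0Hom N g : GL (Fin 2) ℝ).det : ℝ) = 1 := det_mapGL _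
  rw [map_mul, Units.val_mul, h1, h2, mul_one]
  exact Nat.cast_pos.mpr (Nat.pos_of_ne_zero (NeZero.ne ℓ))

theorem lef_mdiff_comp {G : ℍ → ℂ} (hG : MDiff G) (g : Gamma0 N) :
    MDiff (fun z : ℍ => G (nmulH ℓ (((g : Gamma0 N) : SL(2, ℤ)) • z))) := by
  have h := hG.comp (UpperHalfPlane.mdifferentiable_smul (lef_det_pos (ℓ := ℓ) g))
  have e : (fun z : ℍ => G (nmulH ℓ (((g : Gamma0 N) : SL(2, ℤ)) • z))) =
      G ∘ (fun τ : ℍ => (heckeDiagMatrix ℓ * gamma0Hom N g) • τ) := by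
    funext z
    rw [Function.comp_apply, lef_delta_smul]
  rw [e]
  exact h

theorem lef_mdiff_prod {X : Type} [Fintype X] {F : X → ℍ → ℂ} (hF : ∀ x, MDiff (F x)) :
    MDiff (fun z : ℍ => ∏ x, F x z) := by
  classical
  have key : ∀ s : Finset X, MDiff (fun z : ℍ => ∏ x ∈ s, F x z) := by
    intro s
    induction s using Finset.induction_on with
    | empty =>
      simp only [Finset.prod_empty]
      exact mdifferentiable_const
    | insert a s ha ih =>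
      have e : (fun z : ℍ => ∏ x ∈ insert a s, F x z) =
          (fun z : ℍ => F a z * ∏ x ∈ s, F x z) := by
        funext z
        rw [Finset.prod_insert ha]
      rw [e]
      exact (hF a).mul ih
  exact key Finset.univ

/-- **LE-F, part 1**: Hecke equivariance of the Kummer character. -/
theorem hasTorsionChar_hecke_of (n : ℕ) (hn : 0 < n) (ℓ' : Nat.Primes) {X : Type} [Fintype X]
    (γ : X → Gamma0 N) (σ : Gamma0 N → Equiv.Perm X) (γ' : Gamma0 N → X → Gamma0 N)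
    (hrel : ∀ (g : Gamma0 N) (x : X),
      heckeDiagMatrix ℓ' * gamma0Hom N (γ x) * gamma0Hom N g =
        gamma0Hom N (γ' g x) * (heckeDiagMatrix ℓ' * gamma0Hom N (γ (σ g x))))
    (hnorm : haveI : NeZero (ℓ' : ℕ) := ⟨ℓ'.2.ne_zero⟩; NormProdFor N ℓ' γ)
    (x : JZero N) (χ χ' : ↥(Gamma0 N) →* ℂˣ) (hχ' : ∀ g, χ' g = ∏ x, χ (γ' g x))
    (h : HasTorsionChar N n x χ) : HasTorsionChar N n (heckeOperatorBar N ℓ' x) χ' := by
  have : NeZero (ℓ' : ℕ) := ⟨ℓ'.2.ne_zero⟩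
  obtain ⟨D, f, hf, rfl, hD, a, b, G, hb, ha_inv, hb_inv, hab, hG, hG0, hGn, hGχ⟩ := h
  obtain ⟨hnb, D', hD', hD'n⟩ := kummer_hecke N ℓ' (Fermat.Agent.S37lib.heckeInputsAlong_Qbar N ℓ')
    n D f hf hD
  have hab' : ιF N f * algebraMap (WH N) (MF N) b = algebraMap (WH N) (MF N) a := by
    rw [← ιFC_bcF]; exact hab
  obtain ⟨A, B, hB, hA_inv, hB_inv, hAz, hBz, hAB⟩ := hnorm f a b hb ha_inv hb_inv hab'
  -- the root
  set G' : ℍ → ℂ := fun z => ∏ x, G (nmulH ℓ' (((γ x : Gamma0 N) : SL(2, ℤ)) • z)) with hG'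
  have hG'n : ∀ z, G' z ^ n = (A : ℍ → ℂ) z * (B : ℍ → ℂ) z ^ (n - 1) := by
    intro z
    rw [hG', hAz, hBz, ← Finset.prod_pow, ← Finset.prod_pow, ← Finset.prod_mul_distrib]
    exact Finset.prod_congr rfl fun x _ => hGn _
  refine ⟨D', normBeta N ℓ' f, hnb, ?_, hD'n, A, B, G', hB, hA_inv, hB_inv, ?_, ?_, ?_, hG'n, ?_⟩
  · rw [heckeOperatorBar_apply]
    exact hD'
  · rw [ιFC_bcF]; exact hAB
  · exact lef_mdiff_prod fun x => lef_mdiff_comp hG (γ x)
  · -- `G' ≠ 0`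
    intro h0
    have hA : A ≠ 0 := by
      intro hA0
      rw [hA0, map_zero] at hAB
      rcases mul_eq_zero.mp hAB with h1 | h1
      · exact hnb ((map_eq_zero (ιF N)).mp h1)
      · exact hB ((map_eq_zero_iff _ (IsFractionRing.injective (WH N) (MF N))).mp h1)
    have hAB0 : A * B ^ (n - 1) ≠ 0 := mul_ne_zero hA (pow_ne_zero _ hB)
    apply hAB0
    apply Subtype.ext
    funext z
    have := hG'n z
    rw [h0, Pi.zero_apply, zero_pow hn.ne'] at this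
    show (A : ℍ → ℂ) z * ((B ^ (n - 1) : WH N) : ℍ → ℂ) z = 0
    rw [Subring.coe_pow, Pi.pow_apply]
    exact this.symm
  · -- the character
    intro g z
    have key : ∀ x, G (nmulH ℓ' (((γ x : Gamma0 N) : SL(2, ℤ)) • (((g : Gamma0 N) : SL(2, ℤ)) • z)))
        = ((χ (γ' g x) : ℂˣ) : ℂ) * G (nmulH ℓ' (((γ (σ g x) : Gamma0 N) : SL(2, ℤ)) • z)) := by
      intro x
      have e : nmulH ℓ' (((γ x : Gamma0 N) : SL(2, ℤ)) • (((g : Gamma0 N) : SL(2, ℤ)) • z))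
          = ((γ' g x : Gamma0 N) : SL(2, ℤ)) •
            nmulH ℓ' (((γ (σ g x) : Gamma0 N) : SL(2, ℤ)) • z) := by
        rw [← lef_delta_smul, ← lef_gamma0Hom_smul g z, ← mul_smul, hrel g x, mul_smul,
          lef_delta_smul, lef_gamma0Hom_smul]
      rw [e, hGχ]
    rw [hχ', hG']
    simp only [key]
    rw [Finset.prod_mul_distrib, Units.coe_prod]
    congr 1
    exact Equiv.prod_comp (σ g) (fun x => G (nmulH ℓ' (((γ x : Gamma0 N) : SL(2, ℤ)) • z)))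

end

end Fermat.Agent.LatE
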