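import Mathlib
import Fermat.Agent.LatE.Hecke
import Fermat.Agent.GalRep.HeckeLatBC
import Fermat.Agent.GalRep.S30Of

/-!
# Layer E, piece LE-F (part 2): `LatStatement` from the pieces

`latStatement_of`: the Hecke lattice with level structures (`LatStatement`, the input of S30)
from Form L (piece LE-E, in the `HasTorsionChar` form), the norm–product formula (LE-C, LE-D),
coset data for the transposed Hecke operators (LE-A, LE-A') and multiplicity (J3).
-/

set_option autoImplicit false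
open scoped MatrixGroups ModularForm Manifold Topology TensorProduct
open UpperHalfPlane ModularForm CongruenceSubgroup Filter AlgebraicCurve ModularCurve
open Fermat.Agent.S24lib Fermat.Agent.AJlib Fermat.Agent.S22lib

set_option linter.unusedSectionVars false

namespace Fermat.Agent.LatE

open Fermat.Agent.GalRep

/-- Form L (piece LE-E) as a statement. -/
structure FormL (N : ℕ) [NeZero N] : Prop where
  exists_char : ∀ (n : ℕ), 0 < n → ∀ x : JZero N, n • x = 0 →
    ∃ φ : HLat N, HasTorsionChar N n x (latChar N n φ.1)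
  surj : ∀ (n : ℕ), 0 < n → ∀ φ : HLat N, ∃ x : JZero N, HasTorsionChar N n x (latChar N n φ.1)
  unique : ∀ (n : ℕ), 0 < n → ∀ (x : JZero N) (χ χ' : ↥(Gamma0 N) →* ℂˣ),
    HasTorsionChar N n x χ → HasTorsionChar N n x χ' → χ = χ'
  add : ∀ (n : ℕ), 0 < n → ∀ (x y : JZero N) (χ χ' : ↥(Gamma0 N) →* ℂˣ),
    HasTorsionChar N n x χ → HasTorsionChar N n y χ' → HasTorsionChar N n (x + y) (χ * χ')
  eq_zero : ∀ (n : ℕ), 0 < n → ∀ x : JZero N, HasTorsionChar N n x 1 → x = 0
  mul : ∀ (n m : ℕ), 0 < n → 0 < m → ∀ (x : JZero N) (χ : ↥(Gamma0 N) →* ℂˣ),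
    HasTorsionChar N (n * m) x χ → HasTorsionChar N n (m • x) (χ ^ m)
  eq_one_iff : ∀ (n : ℕ), 0 < n → ∀ φ : HLat N,
    latChar N n φ.1 = 1 ↔ ∃ ψ : HLat N, φ = n • ψ

section latChar

variable {N : ℕ}

theorem latChar_add (n : ℕ) (φ ψ : Additive (Gamma0 N) →+ ℤ) :
    latChar N n (φ + ψ) = latChar N n φ * latChar N n ψ := by
  ext g
  rw [MonoidHom.mul_apply, latChar_apply, latChar_apply, latChar_apply, AddMonoidHom.add_apply,
    zpow_add, Units.val_mul]

theorem latChar_zero (n : ℕ) : latChar N n (0 : Additive (Gamma0 N) →+ ℤ) = 1 := by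
  ext g
  rw [latChar_apply, AddMonoidHom.zero_apply, zpow_zero, MonoidHom.one_apply]

theorem latChar_pow_self (n : ℕ) (hn : 0 < n) (φ : Additive (Gamma0 N) →+ ℤ) :
    latChar N n φ ^ n = 1 := by
  have : NeZero n := ⟨hn.ne'⟩
  ext g
  rw [MonoidHom.pow_apply, latChar_apply, MonoidHom.one_apply,
    ← zpow_natCast (zetaUnit n ^ φ (Additive.ofMul g)) n, ← zpow_mul,
    mul_comm (φ (Additive.ofMul g)) (n : ℤ), zpow_mul, zpow_natCast, zetaUnit_pow, one_zpow]

theorem zetaUnit_mul_pow (n m : ℕ) (hm : 0 < m) : zetaUnit (n * m) ^ m = zetaUnit n := by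
  apply Units.ext
  rw [Units.val_pow_eq_pow_val]
  show Complex.exp (2 * Real.pi * Complex.I / ((n * m : ℕ) : ℂ)) ^ m
    = Complex.exp (2 * Real.pi * Complex.I / (n : ℂ))
  rw [← Complex.exp_nat_mul]
  congr 1
  have hm' : (m : ℂ) ≠ 0 := Nat.cast_ne_zero.mpr hm.ne'
  by_cases hn : n = 0
  · subst hn; simp
  have hn' : (n : ℂ) ≠ 0 := Nat.cast_ne_zero.mpr hn
  push_cast
  field_simp

theorem latChar_mul_pow (n m : ℕ) (hm : 0 < m) (φ : Additive (Gamma0 N) →+ ℤ) :
    latChar N (n * m) φ ^ m = latChar N n φ := by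
  ext g
  rw [MonoidHom.pow_apply, latChar_apply, latChar_apply,
    ← zpow_natCast (zetaUnit (n * m) ^ φ (Additive.ofMul g)) m, ← zpow_mul,
    mul_comm (φ (Additive.ofMul g)) (m : ℤ), zpow_mul, zpow_natCast, zetaUnit_mul_pow n m hm]

end latChar

section Points

variable {N : ℕ} [NeZero N] (F : FormL N)
include F

theorem FormL.zero (n : ℕ) (hn : 0 < n) : HasTorsionChar N n (0 : JZero N) 1 := by
  obtain ⟨x, hx⟩ := F.surj n hn 0
  rw [Submodule.coe_zero, latChar_zero] at hx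
  rwa [F.eq_zero n hn x hx] at hx

theorem FormL.nsmul (n : ℕ) (hn : 0 < n) (x : JZero N) (χ : ↥(Gamma0 N) →* ℂˣ)
    (h : HasTorsionChar N n x χ) (k : ℕ) : HasTorsionChar N n (k • x) (χ ^ k) := by
  induction k with
  | zero =>
    have e1 : (0 : ℕ) • x = 0 := zero_nsmul x
    have e2 : χ ^ 0 = 1 := pow_zero χ
    rw [e1, e2]
    exact F.zero n hn
  | succ k ih =>
    have e1 : (k + 1) • x = k • x + x := succ_nsmul x k
    have e2 : χ ^ (k + 1) = χ ^ k * χ := pow_succ χ k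
    rw [e1, e2]
    exact F.add n hn _ _ _ _ ih h

/-- two points with the same character of finite order coincide -/
theorem FormL.point_unique (n : ℕ) (hn : 0 < n) (x y : JZero N) (χ : ↥(Gamma0 N) →* ℂˣ)
    (hχ : χ ^ n = 1) (hx : HasTorsionChar N n x χ) (hy : HasTorsionChar N n y χ) : x = y := by
  obtain ⟨m, rfl⟩ : ∃ m, n = m + 1 := ⟨n - 1, by omega⟩
  have e : χ * χ ^ m = 1 := by rw [← hχ]; exact (pow_succ' χ m).symm
  have h1 : HasTorsionChar N (m + 1) (x + m • y) 1 := by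
    have := F.add (m + 1) hn x (m • y) χ (χ ^ m) hx (F.nsmul (m + 1) hn y χ hy m)
    rwa [e] at this
  have h2 : HasTorsionChar N (m + 1) (y + m • y) 1 := by
    have := F.add (m + 1) hn y (m • y) χ (χ ^ m) hy (F.nsmul (m + 1) hn y χ hy m)
    rwa [e] at this
  have e1 := F.eq_zero (m + 1) hn _ h1
  have e2 := F.eq_zero (m + 1) hn _ h2
  exact add_right_cancel (e1.trans e2.symm)

/-- the level structure `e n : Λ → J[n]` -/
noncomputable def FormL.e (n : ℕ) (hn : 0 < n) : HLat N →+ JZero N :=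
  AddMonoidHom.mk' (fun φ => Classical.choose (F.surj n hn φ)) (by
    intro φ ψ
    have h0 := Classical.choose_spec (F.surj n hn (φ + ψ))
    have e : latChar N n (φ + ψ : HLat N).1 = latChar N n φ.1 * latChar N n ψ.1 :=
      latChar_add n φ.1 ψ.1
    have h1 := Eq.mp (congrArg (HasTorsionChar N n _) e) h0
    have h2 := F.add n hn _ _ _ _ (Classical.choose_spec (F.surj n hn φ))
      (Classical.choose_spec (F.surj n hn ψ))
    exact F.point_unique n hn _ _ _
      (by rw [← latChar_add]; exact latChar_pow_self n hn _) h1 h2)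

theorem FormL.e_spec (n : ℕ) (hn : 0 < n) (φ : HLat N) :
    HasTorsionChar N n (F.e n hn φ) (latChar N n φ.1) :=
  Classical.choose_spec (F.surj n hn φ)

theorem FormL.e_eq (n : ℕ) (hn : 0 < n) (φ : HLat N) (x : JZero N)
    (hx : HasTorsionChar N n x (latChar N n φ.1)) : F.e n hn φ = x :=
  F.point_unique n hn _ _ _ (latChar_pow_self n hn _) (F.e_spec n hn φ) hx

theorem FormL.e_range (n : ℕ) (hn : 0 < n) (x : JZero N) (hx : n • x = 0) :
    ∃ φ, F.e n hn φ = x := by
  obtain ⟨φ, hφ⟩ := F.exists_char n hn x hx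
  exact ⟨φ, F.e_eq n hn φ x hφ⟩

theorem FormL.e_ker (n : ℕ) (hn : 0 < n) (φ : HLat N) :
    F.e n hn φ = 0 ↔ ∃ ψ : HLat N, φ = n • ψ := by
  rw [← F.eq_one_iff n hn φ]
  constructor
  · intro h
    have h1 := F.e_spec n hn φ
    rw [h] at h1
    exact F.unique n hn 0 _ _ h1 (F.zero n hn)
  · intro h
    have h1 := F.e_spec n hn φ
    rw [h] at h1
    exact F.eq_zero n hn _ h1

theorem FormL.e_mul (n m : ℕ) (hn : 0 < n) (hm : 0 < m) (φ : HLat N) :
    m • F.e (n * m) (Nat.mul_pos hn hm) φ = F.e n hn φ := by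
  have h1 := F.mul n m hn hm _ _ (F.e_spec (n * m) (Nat.mul_pos hn hm) φ)
  rw [latChar_mul_pow n m hm] at h1
  exact (F.e_eq n hn φ _ h1).symm

theorem FormL.e_congr {n n' : ℕ} (h : n = n') (hn : 0 < n) (hn' : 0 < n') (φ : HLat N) :
    F.e n hn φ = F.e n' hn' φ := by
  subst h
  rfl

end Points

theorem lef_zpow_sum {G : Type*} [CommGroup G] (b : G) {X : Type*} [Fintype X] (f : X → ℤ) :
    b ^ (∑ x, f x) = ∏ x, b ^ f x := by
  classical
  have key : ∀ s : Finset X, b ^ (∑ x ∈ s, f x) = ∏ x ∈ s, b ^ f x := by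
    intro s
    induction s using Finset.induction_on with
    | empty => simp
    | insert a s ha ih => rw [Finset.sum_insert ha, Finset.prod_insert ha, zpow_add, ih]
  exact key Finset.univ

/-- **LE-F**: the Hecke lattice with level structures, from the pieces of Layer E. -/
theorem latStatement_of
    (Tr : ∀ (N : ℕ) [NeZero N], Nat.Primes → (HLat N →ₗ[ℤ] HLat N))
    (hF : ∀ (N : ℕ) [NeZero N], FormL N)
    (hmult : ∀ (N : ℕ) [NeZero N] (K : Type) [Field K] [CharZero K]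
      (χ : CuspForm.heckeAlgebra N 2 (∅ : Set ℕ) →+* K),
      Module.finrank K (eigenSub K (Tr N)
        (fun ℓ => χ (CuspForm.heckeEvalForms N 2 (ModularCurve.heckeGen ℓ)))) = 2)
    (hcd : ∀ (N : ℕ) [NeZero N] (ℓ : Nat.Primes),
      ∃ (X : Type) (_ : Fintype X) (γ : X → Gamma0 N) (σ : Gamma0 N → Equiv.Perm X)
        (γ' : Gamma0 N → X → Gamma0 N),
        (haveI : NeZero (ℓ : ℕ) := ⟨ℓ.2.ne_zero⟩; NormProdFor N ℓ γ) ∧
        (∀ (g : Gamma0 N) (x : X),
          heckeDiagMatrix ℓ * gamma0Hom N (γ x) * gamma0Hom N g =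
            gamma0Hom N (γ' g x) * (heckeDiagMatrix ℓ * gamma0Hom N (γ (σ g x)))) ∧
        (∀ (φ : HLat N) (g : Gamma0 N),
          (Tr N ℓ φ).1 (Additive.ofMul g) = ∑ x, φ.1 (Additive.ofMul (γ' g x)))) :
    LatStatement := by
  intro N p _ _
  have hp : 0 < p := Nat.Prime.pos Fact.out
  have hpk : ∀ k : ℕ, 0 < p ^ k := fun k => pow_pos hp k
  have F := hF N
  refine ⟨HLat N, inferInstance, inferInstance, inferInstance, Tr N,
    fun k => F.e (p ^ k) (hpk k), fun k x hx => F.e_range (p ^ k) (hpk k) x hx,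
    fun k l => F.e_ker (p ^ k) (hpk k) l, fun k l => ?_, fun k ℓ l => ?_, hmult N⟩
  · rw [F.e_congr (pow_succ p k) (hpk (k + 1)) (Nat.mul_pos (hpk k) hp) l]
    exact F.e_mul (p ^ k) p (hpk k) hp l
  · obtain ⟨X, _, γ, σ, γ', hnp, hrel, hT⟩ := hcd N ℓ
    apply F.e_eq
    refine hasTorsionChar_hecke_of (p ^ k) (hpk k) ℓ γ σ γ' hrel hnp _ (latChar N (p ^ k) l.1) _
      (fun g => ?_) (F.e_spec (p ^ k) (hpk k) l)
    rw [latChar_apply, hT, lef_zpow_sum]
    rfl

end Fermat.Agent.LatE
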