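import Mathlib
import Fermat.Agent.LatE.Final
import Fermat.Agent.LatE.CosetDataFinal
import Fermat.Agent.GalRep.HeckeLatTMult

/-!
# Layer E: `LatStatement` from Form L (LE-E) and the norm–product formula (LE-C, LE-D)

The lattice is `HLat N` with the transposed Hecke operators `heckeLatT N`.
-/

set_option autoImplicit false
open scoped MatrixGroups ModularForm Manifold Topology TensorProduct
open UpperHalfPlane ModularForm CongruenceSubgroup Filter AlgebraicCurve ModularCurve
open Fermat.Agent.S24lib Fermat.Agent.AJlib Fermat.Agent.S22lib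

namespace Fermat.Agent.LatE

open Fermat.Agent.GalRep

theorem latStatement_of_formL_normProd
    (hF : ∀ (N : ℕ) [NeZero N], FormL N)
    (hnp : ∀ (N ℓ : ℕ) [NeZero N] [NeZero ℓ], ℓ.Prime → ∀ {X : Type} [Fintype X]
      (γ : X → Gamma0 N), IsReps N ℓ γ → NormProdFor N ℓ γ) :
    LatStatement := by
  refine latStatement_of (fun N _ => heckeLatT N) hF
    (fun N _ K _ _ χ => finrank_eigenSub_heckeLatT N K χ) (fun N _ ℓ => ?_)
  have : NeZero (ℓ : ℕ) := ⟨ℓ.2.ne_zero⟩
  obtain ⟨X, hX, γ, σ, γ', hreps, hrel, -, hT⟩ := exists_cosetData N ℓ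
  refine ⟨X, hX, γ, σ, γ', hnp N ℓ ℓ.2 γ hreps, hrel, fun φ g => ?_⟩
  rw [heckeLatT_coe]
  exact hT ℤ φ.1 g

end Fermat.Agent.LatE
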