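import Mathlib
import Fermat.Agent.LatE.Defs
import Fermat.Agent.S24lib.ExpInf
import Fermat.Agent.S24lib.JqAnalytic
import Fermat.Agent.S24lib.ConjKRat
import Fermat.Agent.S24lib.Embed
import Fermat.Prelude.Thm_ModularCurve_coeffMap_qExpand

/-!
# Layer E, piece LE-C1 (helper7): the maps `α` and `β` on fractions of modular functions

* `be_exists_hasSum`: every `a ∈ WH N` has a convergent `q_N`-expansion on all of `ℍ`.
* `expInf_comp_nmulH`: if `a'(z) = a(d z)` with `a ∈ WH N`, `a' ∈ WH M` and `d M = e N`, then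
  `expInf M a' = qExpand e (expInf N a)`.
* `iotaF_heckeBetaBar` (Eβ), `iotaF_heckeAlphaBar` (Eα), `iotaF_of_heckeAlphaBar`.
-/

set_option autoImplicit false
open scoped MatrixGroups ModularForm Manifold Topology
open UpperHalfPlane ModularForm CongruenceSubgroup Filter ModularCurve
open Fermat.Agent.S24lib Fermat.Agent.S20lib

namespace Fermat.Agent.LatE

/-- every weakly holomorphic modular function has a convergent `q_N`-expansion on `ℍ` -/
theorem be_exists_hasSum (N : ℕ) [NeZero N] (a : WH N) :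
    ∃ (m : ℕ) (c : ℕ → ℂ), ∀ z : ℍ,
      HasSum (fun n : ℕ => c n * Function.Periodic.qParam (N : ℝ) (z : ℂ) ^ n)
        (Function.Periodic.qParam (N : ℝ) (z : ℂ) ^ m * (a : ℍ → ℂ) z) := by
  obtain ⟨k, hk⟩ := a.2
  have hNpos : (0 : ℝ) < (N : ℝ) := Nat.cast_pos.mpr (Nat.pos_of_ne_zero (NeZero.ne N))
  have hN0 : N ≠ 0 := NeZero.ne N
  let H : ℂ → ℂ := fun x =>
    cuspFunction (N : ℝ) ((a : ℍ → ℂ) * discriminant ^ k) x / etaFun (x ^ N) ^ (24 * k)
  have hmaps : Set.MapsTo (fun x : ℂ => x ^ N) (Metric.ball 0 1) (Metric.ball 0 1) := by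
    intro x hx
    rw [mem_ball_zero_iff] at hx ⊢
    rw [norm_pow]
    exact pow_lt_one₀ (norm_nonneg _) hx hN0
  have hH : DifferentiableOn ℂ H (Metric.ball 0 1) := by
    refine DifferentiableOn.div
      (differentiableOn_cuspFunction_ball hNpos (ei_periodic hk) hk.holo (ei_bdd hk))
      ((differentiableOn_etaFun.comp (differentiable_pow N).differentiableOn hmaps).pow _) ?_
    intro x hx
    exact pow_ne_zero _ (etaFun_ne_zero (by simpa using hmaps hx))
  refine ⟨N * k, fun n => (taylorPS H).coeff n, fun z => ?_⟩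
  have hx : ‖Function.Periodic.qParam (N : ℝ) (z : ℂ)‖ < 1 :=
    Function.Periodic.norm_qParam_lt_one hNpos z.im_pos
  have hs := hasSum_taylorPS hH hx
  have hval : H (Function.Periodic.qParam (N : ℝ) (z : ℂ)) =
      Function.Periodic.qParam (N : ℝ) (z : ℂ) ^ (N * k) * (a : ℍ → ℂ) z := by
    have h1 : cuspFunction (N : ℝ) ((a : ℍ → ℂ) * discriminant ^ k)
        (Function.Periodic.qParam (N : ℝ) (z : ℂ)) = (a : ℍ → ℂ) z * discriminant z ^ k := by
      have := eq_cuspFunction (f := (a : ℍ → ℂ) * discriminant ^ k) z hNpos.ne' (ei_periodic hk)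
      simpa using this
    have hq1 : Function.Periodic.qParam 1 (z : ℂ) =
        Function.Periodic.qParam (N : ℝ) (z : ℂ) ^ N := by
      have := ei_qParam_one_nmul N 1 (z : ℂ)
      simpa using this
    have hq : ‖Function.Periodic.qParam 1 (z : ℂ)‖ < 1 :=
      Function.Periodic.norm_qParam_lt_one one_pos z.im_pos
    have h2 : discriminant z = Function.Periodic.qParam 1 z *
        etaFun (Function.Periodic.qParam 1 z) ^ 24 := by
      rw [ModularForm.discriminant_eq_q_prod, etaFun,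
        ← (ModularForm.multipliable_one_sub_pow hq).tprod_pow 24]
    have hne : etaFun (Function.Periodic.qParam 1 z) ≠ 0 := etaFun_ne_zero hq
    show cuspFunction (N : ℝ) ((a : ℍ → ℂ) * discriminant ^ k)
        (Function.Periodic.qParam (N : ℝ) (z : ℂ)) /
        etaFun (Function.Periodic.qParam (N : ℝ) (z : ℂ) ^ N) ^ (24 * k) = _
    have e : Function.Periodic.qParam (N : ℝ) (z : ℂ) ^ (N * k) =
        Function.Periodic.qParam 1 (z : ℂ) ^ k := by rw [pow_mul, ← hq1]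
    rw [h1, h2, ← hq1, e, pow_mul, mul_pow]
    have hne2 : (etaFun (Function.Periodic.qParam 1 z) ^ 24) ^ k ≠ 0 :=
      pow_ne_zero _ (pow_ne_zero _ hne)
    field_simp
  rw [hval] at hs
  exact hs

/-- `q_N(d z) = q_M(z)^e` if `d M = e N` -/
theorem be_qParam_nmul (N M d e : ℕ) [NeZero N] [NeZero M] (h : d * M = e * N) (z : ℂ) :
    Function.Periodic.qParam (N : ℝ) ((d : ℂ) * z) = Function.Periodic.qParam (M : ℝ) z ^ e := by
  have hN : (N : ℂ) ≠ 0 := Nat.cast_ne_zero.2 (NeZero.ne N)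
  have hM : (M : ℂ) ≠ 0 := Nat.cast_ne_zero.2 (NeZero.ne M)
  have h' : (d : ℂ) * (M : ℂ) = (e : ℂ) * (N : ℂ) := by exact_mod_cast congrArg (Nat.cast : ℕ → ℂ) h
  rw [Function.Periodic.qParam, Function.Periodic.qParam, ← Complex.exp_nat_mul]
  congr 1
  push_cast
  field_simp
  linear_combination z * h'

/-- `qExpand` of a shifted power series -/
theorem be_qExpand_single_mul_ofPowerSeries (e : ℕ) [NeZero e] (m : ℕ) (c : ℕ → ℂ) :
    qExpand ℂ e (HahnSeries.single (-(m : ℤ)) (1 : ℂ) *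
      HahnSeries.ofPowerSeries ℤ ℂ (PowerSeries.mk c)) =
    HahnSeries.single (-((e * m : ℕ) : ℤ)) (1 : ℂ) *
      HahnSeries.ofPowerSeries ℤ ℂ (PowerSeries.mk fun k => if e ∣ k then c (k / e) else 0) := by
  have he : 0 < e := Nat.pos_of_ne_zero (NeZero.ne e)
  have he' : (e : ℤ) ≠ 0 := by exact_mod_cast NeZero.ne e
  rw [map_mul, qExpand_single]
  have h1 : ((e : ℤ) * -(m : ℤ)) = -((e * m : ℕ) : ℤ) := by push_cast; ring
  rw [h1]
  congr 1
  ext k
  by_cases hk : (e : ℤ) ∣ k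
  · obtain ⟨t, rfl⟩ := hk
    rw [qExpand_coeff_mul]
    by_cases ht : 0 ≤ t
    · obtain ⟨n, rfl⟩ := Int.eq_ofNat_of_zero_le ht
      have h2 : (e : ℤ) * (n : ℤ) = ((e * n : ℕ) : ℤ) := by push_cast; ring
      rw [h2, HahnSeries.ofPowerSeries_apply_coeff, HahnSeries.ofPowerSeries_apply_coeff,
        PowerSeries.coeff_mk, PowerSeries.coeff_mk, if_pos (dvd_mul_right e n),
        Nat.mul_div_cancel_left _ he]
    · rw [not_le] at ht
      have h3 : (e : ℤ) * t < 0 := mul_neg_of_pos_of_neg (by exact_mod_cast he) ht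
      rw [ofPowerSeries_coeff_neg _ ht, ofPowerSeries_coeff_neg _ h3]
  · rw [qExpand_coeff_of_not_dvd _ _ hk]
    by_cases hk0 : 0 ≤ k
    · obtain ⟨n, rfl⟩ := Int.eq_ofNat_of_zero_le hk0
      have hnd : ¬ e ∣ n := fun h => hk (Int.natCast_dvd_natCast.mpr h)
      rw [HahnSeries.ofPowerSeries_apply_coeff, PowerSeries.coeff_mk, if_neg hnd]
    · rw [not_le] at hk0
      rw [ofPowerSeries_coeff_neg _ hk0]

/-- **change of level / of variable for the expansion at `∞`**: `a'(z) = a(d z)`,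
`q_N(d z) = q_M(z)^e`. -/
theorem expInf_comp_nmulH (N M d e : ℕ) [NeZero N] [NeZero M] [NeZero d] [NeZero e]
    (h : d * M = e * N) (a : WH N) (a' : WH M)
    (ha' : ∀ z : ℍ, (a' : ℍ → ℂ) z = (a : ℍ → ℂ) (nmulH d z)) :
    expInf M a' = qExpand ℂ e (expInf N a) := by
  obtain ⟨m, c, hc⟩ := be_exists_hasSum N a
  have he : 0 < e := Nat.pos_of_ne_zero (NeZero.ne e)
  rw [expInf_eq_of_hasSum N a m c hc, be_qExpand_single_mul_ofPowerSeries]
  refine expInf_eq_of_hasSum M a' (e * m) _ fun z => ?_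
  have h1 := hc (nmulH d z)
  rw [coe_nmulH, be_qParam_nmul N M d e h] at h1
  have h2 := hasSum_pow_reindex e he c _ _ h1
  rw [← pow_mul] at h2
  rw [ha']
  exact h2

theorem be_nmulH_one (z : ℍ) : nmulH 1 z = z := by
  apply UpperHalfPlane.ext
  rw [coe_nmulH]
  simp

/-- the identity `ιF f · b = a` in terms of expansions -/
theorem be_iotaF_iff (N : ℕ) [NeZero N] (f : FF N) (a b : WH N) :
    ιF N f * algebraMap (WH N) (MF N) b = algebraMap (WH N) (MF N) a ↔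
      inclL N (f : LaurentSeries Kbar) * expInf N b = expInf N a := by
  constructor
  · intro h
    have := congrArg (liftMF N (expInf N) (expInf_injective N)) h
    rwa [map_mul, liftMF_ιF, liftMF_algebraMap, liftMF_algebraMap] at this
  · intro h
    apply (liftMF N (expInf N) (expInf_injective N)).injective
    rwa [map_mul, liftMF_ιF, liftMF_algebraMap, liftMF_algebraMap]

theorem be_inclL_beta (N ℓ : ℕ) [NeZero N] [NeZero ℓ] (f : FF N) :
    inclL (N * ℓ) ((heckeBetaBar Kbar N ℓ f : FF (N * ℓ)) : LaurentSeries Kbar) =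
      qExpand ℂ (ℓ * ℓ) (inclL N (f : LaurentSeries Kbar)) := by
  rw [coe_heckeBetaBar]
  show qExpand ℂ (N * ℓ) (coeffMap ιC (qExpand Kbar ℓ (f : LaurentSeries Kbar))) =
    qExpand ℂ (ℓ * ℓ) (qExpand ℂ N (coeffMap ιC (f : LaurentSeries Kbar)))
  rw [ModularCurve.coeffMap_qExpand, qExpand_qExpand, qExpand_qExpand]
  exact qExpand_congr (by ring) _

theorem be_inclL_alpha (N ℓ : ℕ) [NeZero N] [NeZero ℓ] (f : FF N) :
    inclL (N * ℓ) ((heckeAlphaBar Kbar N ℓ f : FF (N * ℓ)) : LaurentSeries Kbar) =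
      qExpand ℂ ℓ (inclL N (f : LaurentSeries Kbar)) := by
  rw [coe_heckeAlphaBar]
  show qExpand ℂ (N * ℓ) (coeffMap ιC (f : LaurentSeries Kbar)) =
    qExpand ℂ ℓ (qExpand ℂ N (coeffMap ιC (f : LaurentSeries Kbar)))
  rw [qExpand_qExpand]
  exact qExpand_congr (by ring) _

/-- **(Eβ)**: `β f = f(ℓ z)` on fractions -/
theorem iotaF_heckeBetaBar (N ℓ : ℕ) [NeZero N] [NeZero ℓ] (f : FF N) (a b : WH N)
    (hf : ιF N f * algebraMap (WH N) (MF N) b = algebraMap (WH N) (MF N) a)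
    (a' b' : WH (N * ℓ)) (ha' : ∀ z : ℍ, (a' : ℍ → ℂ) z = (a : ℍ → ℂ) (nmulH ℓ z))
    (hb' : ∀ z : ℍ, (b' : ℍ → ℂ) z = (b : ℍ → ℂ) (nmulH ℓ z)) :
    ιF (N * ℓ) (heckeBetaBar Kbar N ℓ f) * algebraMap (WH (N * ℓ)) (MF (N * ℓ)) b' =
      algebraMap (WH (N * ℓ)) (MF (N * ℓ)) a' := by
  rw [be_iotaF_iff] at hf ⊢
  rw [be_inclL_beta, expInf_comp_nmulH N (N * ℓ) ℓ (ℓ * ℓ) (by ring) a a' ha',
    expInf_comp_nmulH N (N * ℓ) ℓ (ℓ * ℓ) (by ring) b b' hb', ← map_mul, hf]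

/-- **(Eα)**: `α` = inclusion (level raising), on fractions -/
theorem iotaF_heckeAlphaBar (N ℓ : ℕ) [NeZero N] [NeZero ℓ] (f : FF N) (a b : WH N)
    (hf : ιF N f * algebraMap (WH N) (MF N) b = algebraMap (WH N) (MF N) a)
    (a' b' : WH (N * ℓ)) (ha' : ∀ z : ℍ, (a' : ℍ → ℂ) z = (a : ℍ → ℂ) z)
    (hb' : ∀ z : ℍ, (b' : ℍ → ℂ) z = (b : ℍ → ℂ) z) :
    ιF (N * ℓ) (heckeAlphaBar Kbar N ℓ f) * algebraMap (WH (N * ℓ)) (MF (N * ℓ)) b' =
      algebraMap (WH (N * ℓ)) (MF (N * ℓ)) a' := by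
  rw [be_iotaF_iff] at hf ⊢
  rw [be_inclL_alpha,
    expInf_comp_nmulH N (N * ℓ) 1 ℓ (by ring) a a' (fun z => by rw [be_nmulH_one]; exact ha' z),
    expInf_comp_nmulH N (N * ℓ) 1 ℓ (by ring) b b' (fun z => by rw [be_nmulH_one]; exact hb' z),
    ← map_mul, hf]

/-- descent: the converse of `iotaF_heckeAlphaBar` -/
theorem iotaF_of_heckeAlphaBar (N ℓ : ℕ) [NeZero N] [NeZero ℓ] (f : FF N) (a b : WH N)
    (a' b' : WH (N * ℓ)) (ha' : ∀ z : ℍ, (a' : ℍ → ℂ) z = (a : ℍ → ℂ) z)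
    (hb' : ∀ z : ℍ, (b' : ℍ → ℂ) z = (b : ℍ → ℂ) z)
    (hf : ιF (N * ℓ) (heckeAlphaBar Kbar N ℓ f) * algebraMap (WH (N * ℓ)) (MF (N * ℓ)) b' =
      algebraMap (WH (N * ℓ)) (MF (N * ℓ)) a') :
    ιF N f * algebraMap (WH N) (MF N) b = algebraMap (WH N) (MF N) a := by
  rw [be_iotaF_iff] at hf ⊢
  rw [be_inclL_alpha,
    expInf_comp_nmulH N (N * ℓ) 1 ℓ (by ring) a a' (fun z => by rw [be_nmulH_one]; exact ha' z),
    expInf_comp_nmulH N (N * ℓ) 1 ℓ (by ring) b b' (fun z => by rw [be_nmulH_one]; exact hb' z),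
    ← map_mul] at hf
  exact qExpand_injective ℓ hf

end Fermat.Agent.LatE
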