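/-
Layer E, piece LE-C3 (helper27; LE-C owner helper3, architect helper6): a system of representatives
of `Γ₀(Nℓ) \ Γ₀(N)` has `[F_{Nℓ} : F_N]` elements.
-/
import Mathlib
import Fermat.Agent.LatE.Defs
import Fermat.Agent.HeckeBar.ModDeg
import Fermat.Agent.S20_Comb

set_option autoImplicit false

open scoped MatrixGroups
open CongruenceSubgroup AlgebraicCurve ModularCurve
open Fermat.Agent.S24lib

namespace Fermat.Agent.LatE

/-- the condition in `IsReps` is membership in `Γ₀(Nℓ)` -/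
theorem cr_dvd_iff_mem (M : ℕ) (g : SL(2, ℤ)) :
    ((M : ℕ) : ℤ) ∣ g 1 0 ↔ g ∈ Gamma0 M := by
  rw [Gamma0_mem, ZMod.intCast_zmod_eq_zero_iff_dvd]

theorem cr_Gamma0_mul_le (N ℓ : ℕ) : Gamma0 (N * ℓ) ≤ Gamma0 N := by
  intro g hg
  rw [← cr_dvd_iff_mem] at hg ⊢
  exact dvd_trans (by exact_mod_cast dvd_mul_right N ℓ) hg

/-- distinct representatives lie in distinct cosets -/
theorem isReps_eq_of_mem (N ℓ : ℕ) {X : Type} (γ : X → Gamma0 N) (hγ : IsReps N ℓ γ) (x y : X)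
    (h : ((γ x * (γ y)⁻¹ : Gamma0 N) : SL(2, ℤ)) ∈ Gamma0 (N * ℓ)) : x = y := by
  obtain ⟨x', -, hx'⟩ := hγ (γ x)
  have h1 : x = x' := hx' x (by
    show ((N * ℓ : ℕ) : ℤ) ∣ ((γ x * (γ x)⁻¹ : Gamma0 N) : SL(2, ℤ)) 1 0
    rw [mul_inv_cancel]
    simp)
  have h2 : y = x' := hx' y ((cr_dvd_iff_mem (N * ℓ) _).2 h)
  rw [h1, h2]

/-- a system of representatives is in bijection with the cosets -/
theorem isReps_bijective (N ℓ : ℕ) {X : Type} (γ : X → Gamma0 N) (hγ : IsReps N ℓ γ) :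
    Function.Bijective (fun x : X =>
      (QuotientGroup.mk ((γ x)⁻¹) : Gamma0 N ⧸ (Gamma0 (N * ℓ)).subgroupOf (Gamma0 N))) := by
  constructor
  · intro x y hxy
    have h1 := QuotientGroup.eq.1 hxy
    rw [inv_inv, Subgroup.mem_subgroupOf] at h1
    exact isReps_eq_of_mem N ℓ γ hγ x y h1
  · intro c
    induction c using QuotientGroup.induction_on with
    | H g =>
      obtain ⟨x, hx, -⟩ := hγ g⁻¹
      refine ⟨x, ?_⟩
      symm
      apply QuotientGroup.eq.2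
      rw [Subgroup.mem_subgroupOf]
      exact (cr_dvd_iff_mem (N * ℓ) _).1 hx

/-- the number of representatives is the relative index -/
theorem card_reps_eq_relIndex (N ℓ : ℕ) {X : Type} [Fintype X] (γ : X → Gamma0 N)
    (hγ : IsReps N ℓ γ) : Fintype.card X = (Gamma0 (N * ℓ)).relIndex (Gamma0 N) := by
  rw [Subgroup.relIndex, Subgroup.index, ← Nat.card_eq_fintype_card]
  exact Nat.card_congr (Equiv.ofBijective _ (isReps_bijective N ℓ γ hγ))

/-- **LE-C3** -/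
theorem card_reps_eq_finrank (N ℓ : ℕ) [NeZero N] [NeZero ℓ] {X : Type} [Fintype X]
    (γ : X → Gamma0 N) (hγ : IsReps N ℓ γ) :
    Fintype.card X = finrankAlong Kbar (heckeAlphaBar Kbar N ℓ) := by
  have : NeZero (N * ℓ) := ⟨Nat.mul_ne_zero (NeZero.ne N) (NeZero.ne ℓ)⟩
  have h1 := card_reps_eq_relIndex N ℓ γ hγ
  have h2 := Subgroup.relIndex_mul_index (cr_Gamma0_mul_le N ℓ)
  rw [Fermat.Agent.S20lib.index_Gamma0 N (NeZero.ne N),
    Fermat.Agent.S20lib.index_Gamma0 (N * ℓ) (NeZero.ne (N * ℓ)), ← h1] at h2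
  have h3 := Fermat.Agent.HeckeBar.dedekindPsi_mul_finrankAlong_inclBar N (N * ℓ)
    (dvd_mul_right N ℓ)
  rw [← Fermat.Agent.HeckeBar.heckeAlphaBar_eq_inclBar N ℓ, ← h2, mul_comm] at h3
  exact (Nat.eq_of_mul_eq_mul_right (Fermat.Agent.HeckeBar.dedekindPsi_pos N) h3).symm

/-- the same in the shape `Module.finrank` -/
theorem card_reps_eq_finrank' (N ℓ : ℕ) [NeZero N] [NeZero ℓ] {X : Type} [Fintype X]
    (γ : X → Gamma0 N) (hγ : IsReps N ℓ γ) :
    letI := algebraAlong (heckeAlphaBar Kbar N ℓ)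
    Fintype.card X = Module.finrank (FF N) (FF (N * ℓ)) :=
  card_reps_eq_finrank N ℓ γ hγ

end Fermat.Agent.LatE
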