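/-
Layer E, piece LE-D (helper9): the product over the cosets `Γ₀(Nℓ) \ Γ₀(N)` of the translates of
`a(ℓ z)` is a weakly holomorphic modular function of level `N`, invariant under `Γ₀(N)`.

Main results (namespace `Fermat.Agent.LatE`):
* `exists_conj_nmulH`, `nmulH_smul_Gamma0`, `nmulH_smul_Gamma` : `ℓ·(h z) = h'·(ℓ z)`.
* `isBounded_comp_affH_mul` : growth at `i∞` of `f((αz+β)/δ) Δ(z)^K`.
* `isWH_comp_nmulH` : `a(ℓ z) ∈ WH(Nℓ)` for `a ∈ WH(N)`.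
* `isWH_of_invariant` : lowering the level.
* `prodWH` : **LE-D**.
No sorry in this file.
-/
import Mathlib
import Fermat.Agent.LatE.Defs
import Fermat.Agent.S24lib.ConjWH
import Fermat.Agent.S24lib.Embed

set_option autoImplicit false

open scoped MatrixGroups ModularForm Manifold Topology
open UpperHalfPlane ModularForm CongruenceSubgroup Filter Asymptotics

namespace Fermat.Agent.LatE

open Fermat.Agent.S24lib Fermat.Agent.S20lib

/-! ### conjugation by `diag(ℓ, 1)` -/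

/-- the conjugate by `diag(ℓ,1)` of an element with `ℓ ∣ c` -/
lemma exists_conj_nmulH (ℓ : ℕ) [NeZero ℓ] (h : SL(2, ℤ)) (c' : ℤ) (hc : h 1 0 = ℓ * c') :
    ∃ h' : SL(2, ℤ), h' 0 0 = h 0 0 ∧ h' 0 1 = ℓ * h 0 1 ∧ h' 1 0 = c' ∧ h' 1 1 = h 1 1 ∧
      ∀ z : ℍ, nmulH ℓ (h • z) = h' • nmulH ℓ z := by
  have hdet : h 0 0 * h 1 1 - h 0 1 * h 1 0 = 1 := by
    have := h.det_coe
    rw [Matrix.det_fin_two] at this
    exact this
  obtain ⟨h', hh'⟩ : ∃ h' : SL(2, ℤ), h' = ⟨!![h 0 0, ℓ * h 0 1; c', h 1 1], by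
      rw [Matrix.det_fin_two_of]
      rw [hc] at hdet
      linear_combination hdet⟩ := ⟨_, rfl⟩
  have h00 : h' 0 0 = h 0 0 := by rw [hh']; rfl
  have h01 : h' 0 1 = ℓ * h 0 1 := by rw [hh']; rfl
  have h10 : h' 1 0 = c' := by rw [hh']; rfl
  have h11 : h' 1 1 = h 1 1 := by rw [hh']; rfl
  refine ⟨h', h00, h01, h10, h11, fun z => ?_⟩
  apply UpperHalfPlane.ext
  rw [coe_nmulH, UpperHalfPlane.coe_specialLinearGroup_apply,
    UpperHalfPlane.coe_specialLinearGroup_apply, coe_nmulH]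
  simp only [algebraMap_int_eq, eq_intCast, Complex.ofReal_intCast]
  rw [h00, h01, h10, h11]
  have hden1 : ((h 1 0 : ℤ) : ℂ) * (z : ℂ) + ((h 1 1 : ℤ) : ℂ) ≠ 0 :=
    dist_lin_ne_zero (h 1 0) (h 1 1) (by
      by_contra hcon
      rw [not_or, not_not, not_not] at hcon
      rw [hcon.1, hcon.2] at hdet
      simp at hdet) z
  have hden2 : ((c' : ℤ) : ℂ) * ((ℓ : ℂ) * (z : ℂ)) + ((h 1 1 : ℤ) : ℂ) ≠ 0 := by
    have e : ((c' : ℤ) : ℂ) * ((ℓ : ℂ) * (z : ℂ)) = ((h 1 0 : ℤ) : ℂ) * (z : ℂ) := by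
      rw [hc]; push_cast; ring
    rw [e]; exact hden1
  have E : ((h 1 0 : ℤ) : ℂ) = (ℓ : ℂ) * (c' : ℂ) := by rw [hc]; push_cast; ring
  rw [mul_div_assoc', div_eq_div_iff hden1 hden2]
  push_cast
  rw [E]
  ring

/-- for `h ∈ Γ₀(Nℓ)`: `ℓ·(h z) = h'·(ℓ z)` with `h' ∈ Γ₀(N)` -/
theorem nmulH_smul_Gamma0 (N ℓ : ℕ) [NeZero ℓ] (h : SL(2, ℤ)) (hh : h ∈ Gamma0 (N * ℓ)) :
    ∃ h' ∈ Gamma0 N, ∀ z : ℍ, nmulH ℓ (h • z) = h' • nmulH ℓ z := by
  rw [Gamma0_mem] at hh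
  have hdvd : ((N * ℓ : ℕ) : ℤ) ∣ h 1 0 := (ZMod.intCast_zmod_eq_zero_iff_dvd _ _).mp hh
  obtain ⟨c'', hc''⟩ := hdvd
  have hc : h 1 0 = ℓ * ((N : ℤ) * c'') := by rw [hc'']; push_cast; ring
  obtain ⟨h', -, -, h10, -, hz⟩ := exists_conj_nmulH ℓ h _ hc
  refine ⟨h', ?_, hz⟩
  rw [Gamma0_mem, h10]
  push_cast
  simp

/-- for `h ∈ Γ(Nℓ)`: `ℓ·(h z) = h'·(ℓ z)` with `h' ∈ Γ(N)` -/
theorem nmulH_smul_Gamma (N ℓ : ℕ) [NeZero ℓ] (h : SL(2, ℤ)) (hh : h ∈ Gamma (N * ℓ)) :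
    ∃ h' ∈ Gamma N, ∀ z : ℍ, nmulH ℓ (h • z) = h' • nmulH ℓ z := by
  rw [Gamma_mem] at hh
  obtain ⟨e00, e01, e10, e11⟩ := hh
  have hNdvd : N ∣ N * ℓ := Dvd.intro _ rfl
  have cast1 : ∀ x : ℤ, ((x : ZMod (N * ℓ)) = 1) → ((x : ZMod N) = 1) := by
    intro x hx
    have := congrArg (ZMod.castHom hNdvd (ZMod N)) hx
    simpa using this
  have cast0 : ∀ x : ℤ, ((x : ZMod (N * ℓ)) = 0) → ((x : ZMod N) = 0) := by
    intro x hx
    have := congrArg (ZMod.castHom hNdvd (ZMod N)) hx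
    simpa using this
  have hdvd : ((N * ℓ : ℕ) : ℤ) ∣ h 1 0 := (ZMod.intCast_zmod_eq_zero_iff_dvd _ _).mp e10
  obtain ⟨c'', hc''⟩ := hdvd
  have hc : h 1 0 = ℓ * ((N : ℤ) * c'') := by rw [hc'']; push_cast; ring
  obtain ⟨h', h00, h01, h10, h11, hz⟩ := exists_conj_nmulH ℓ h _ hc
  refine ⟨h', ?_, hz⟩
  rw [Gamma_mem, h00, h01, h10, h11]
  refine ⟨cast1 _ e00, ?_, ?_, cast1 _ e11⟩
  · have := cast0 _ e01
    push_cast
    rw [this, mul_zero]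
  · push_cast
    simp

/-! ### growth at the cusps -/

/-- growth: if `f Δ^k` is bounded at `i∞` then so is `f((αz+β)/δ) Δ(z)^K` for `α k ≤ K δ` -/
theorem isBounded_comp_affH_mul {f : ℍ → ℂ} {k : ℕ}
    (hf : IsBoundedAtImInfty (f * discriminant ^ k))
    (α δ : ℕ) (β : ℤ) (hα : 0 < α) (hδ : 0 < δ) (K : ℕ) (hK : α * k ≤ K * δ) :
    IsBoundedAtImInfty (fun z : ℍ => f (affH α δ β hα hδ z) * discriminant z ^ K) := by
  have hw := tendsto_affH α δ β hα hδ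
  have h1 : (fun z : ℍ => f (affH α δ β hα hδ z) * discriminant (affH α δ β hα hδ z) ^ k)
      =O[atImInfty] (fun _ : ℍ => (1 : ℝ)) := by
    have h := hf.comp_tendsto hw
    simpa [IsBoundedAtImInfty, BoundedAtFilter, Function.comp_def] using h
  have h2 : (fun z : ℍ => ((discriminant (affH α δ β hα hδ z))⁻¹) ^ k) =O[atImInfty]
      (fun z : ℍ => ((Real.exp (-2 * Real.pi * (affH α δ β hα hδ z).im))⁻¹) ^ k) := by
    have h := (exp_isBigO_discriminant.comp_tendsto hw)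
    have h' : (fun z : ℍ => (discriminant (affH α δ β hα hδ z))⁻¹) =O[atImInfty]
        (fun z : ℍ => (Real.exp (-2 * Real.pi * (affH α δ β hα hδ z).im))⁻¹) :=
      h.inv_rev (Eventually.of_forall fun z hz => absurd hz (Real.exp_pos _).ne')
    exact h'.pow k
  have h3 : (fun z : ℍ => discriminant z ^ K) =O[atImInfty]
      (fun z : ℍ => Real.exp (-2 * Real.pi * z.im) ^ K) := by
    have h : (discriminant : ℍ → ℂ) =O[atImInfty] fun τ : ℍ => Real.exp (-2 * Real.pi * τ.im / 1) :=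
      CuspFormClass.exp_decay_atImInfty (h := 1) CuspForm.discriminant one_pos
        one_mem_strictPeriods_SL
    have h' : (discriminant : ℍ → ℂ) =O[atImInfty] fun τ : ℍ => Real.exp (-2 * Real.pi * τ.im) := by
      simpa using h
    exact h'.pow K
  have hprod := (h1.mul h2).mul h3
  have hfun : (fun z : ℍ => f (affH α δ β hα hδ z) * discriminant z ^ K) =
      fun z : ℍ => f (affH α δ β hα hδ z) * discriminant (affH α δ β hα hδ z) ^ k *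
        ((discriminant (affH α δ β hα hδ z))⁻¹) ^ k * discriminant z ^ K := by
    funext z
    have hne : discriminant (affH α δ β hα hδ z) ^ k ≠ 0 :=
      pow_ne_zero _ (discriminant_ne_zero _)
    rw [inv_pow, mul_assoc (f _), mul_inv_cancel₀ hne, mul_one]
  rw [IsBoundedAtImInfty, BoundedAtFilter, hfun]
  refine hprod.trans ?_
  refine IsBigO.of_bound 1 ?_
  unfold atImInfty
  rw [eventually_comap]
  filter_upwards [eventually_ge_atTop (0 : ℝ)] with y hy z hz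
  rw [im_affH]
  simp only [one_mul, Pi.one_apply, norm_one, mul_one]
  rw [← Real.exp_neg, ← Real.exp_nat_mul, ← Real.exp_nat_mul, ← Real.exp_add, Real.norm_eq_abs,
    abs_of_pos (Real.exp_pos _)]
  rw [Real.exp_le_one_iff]
  have hδ' : (0 : ℝ) < δ := Nat.cast_pos.mpr hδ
  have hK' : (α : ℝ) * k ≤ K * δ := by exact_mod_cast hK
  have h5 : (α : ℝ) / δ * k ≤ K := by
    rw [div_mul_eq_mul_div, div_le_iff₀ hδ']
    exact hK'
  have hy' : 0 ≤ z.im := z.im_pos.le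
  have hpi : 0 < Real.pi := Real.pi_pos
  have : (k : ℝ) * -(-2 * Real.pi * ((α : ℝ) / δ * z.im)) + (K : ℝ) * (-2 * Real.pi * z.im)
      = -(2 * Real.pi * z.im * ((K : ℝ) - (α : ℝ) / δ * k)) := by ring
  rw [this]
  have h6 : 0 ≤ (K : ℝ) - (α : ℝ) / δ * k := by linarith
  have h7 : 0 ≤ 2 * Real.pi * z.im * ((K : ℝ) - (α : ℝ) / δ * k) := by positivity
  linarith

/-! ### `a(ℓ z)` -/

/-- `z ↦ a(ℓ z)` is holomorphic. -/
lemma mdiff_comp_nmulH (ℓ : ℕ) [NeZero ℓ] {a : ℍ → ℂ} (ha : MDiff a) :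
    MDiff (fun z : ℍ => a (nmulH ℓ z)) := by
  rw [UpperHalfPlane.mdifferentiable_iff] at ha ⊢
  have hd : (0 : ℝ) < ℓ := Nat.cast_pos.mpr (Nat.pos_of_ne_zero (NeZero.ne ℓ))
  have hmaps : Set.MapsTo (fun w : ℂ => (ℓ : ℂ) * w) {w : ℂ | 0 < w.im} {w : ℂ | 0 < w.im} := by
    intro w hw
    simp only [Set.mem_ofPred_eq] at hw ⊢
    have : ((ℓ : ℂ) * w).im = ℓ * w.im := by simp
    rw [this]
    exact mul_pos hd hw
  have hcomp : DifferentiableOn ℂ ((a ∘ ofComplex) ∘ fun w : ℂ => (ℓ : ℂ) * w)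
      {w : ℂ | 0 < w.im} :=
    ha.comp (by fun_prop) hmaps
  refine hcomp.congr fun w hw => ?_
  simp only [Function.comp_apply]
  rw [ofComplex_apply_of_im_pos hw]
  congr 1
  have h : ((ℓ : ℂ) * w) = ((nmulH ℓ ⟨w, hw⟩ : ℍ) : ℂ) := rfl
  rw [h, ofComplex_apply]

/-- the slash action in weight `12 K` on `f Δ^K` -/
lemma slash_mul_discriminant_pow (f : ℍ → ℂ) (K : ℕ) (g : SL(2, ℤ)) :
    (f * discriminant ^ K) ∣[12 * (K : ℤ)] g = (f ∣[(0 : ℤ)] g) * discriminant ^ K := by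
  have := mul_slash_SL2 0 (12 * (K : ℤ)) g f (discriminant ^ K)
  rw [zero_add] at this
  rw [this, wh_discriminant_pow_slash]

/-- a function with `f Δ^k` modular on `Γ` is `Γ`-invariant -/
lemma invariant_of_isMF_mul {Γ : Subgroup SL(2, ℤ)} {f : ℍ → ℂ} {k : ℕ}
    (hk : IsMF Γ (12 * (k : ℤ)) (f * discriminant ^ k)) (γ : SL(2, ℤ)) (hγ : γ ∈ Γ) (z : ℍ) :
    f (γ • z) = f z := by
  have h := hk.inv γ hγ
  rw [slash_mul_discriminant_pow] at h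
  have h' := congrFun h z
  simp only [Pi.mul_apply, Pi.pow_apply] at h'
  rw [wh_slash_zero_apply] at h'
  exact mul_right_cancel₀ (pow_ne_zero k (discriminant_ne_zero z)) h'

/-- `a(ℓ z)` is weakly holomorphic of level `Nℓ` -/
theorem isWH_comp_nmulH (N ℓ : ℕ) [NeZero N] [NeZero ℓ] {a : ℍ → ℂ} (ha : IsWH N a) :
    IsWH (N * ℓ) (fun z => a (nmulH ℓ z)) := by
  obtain ⟨k, hk⟩ := ha
  have hℓ : 0 < ℓ := Nat.pos_of_ne_zero (NeZero.ne ℓ)
  have hamd : MDiff a := by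
    have h1 := hk.holo
    have h2 : a = fun z => (a * discriminant ^ k) z * ((discriminant z) ^ k)⁻¹ := by
      funext z
      simp only [Pi.mul_apply, Pi.pow_apply]
      rw [mul_assoc, mul_inv_cancel₀ (pow_ne_zero k (discriminant_ne_zero z)), mul_one]
    exact (IsWH.mdiff ⟨k, hk⟩)
  obtain ⟨f, hf⟩ : ∃ f : ℍ → ℂ, f = fun z => a (nmulH ℓ z) := ⟨_, rfl⟩
  rw [← hf]
  refine ⟨k * ℓ, ?_, ?_, ?_⟩
  · rw [hf]
    exact (mdiff_comp_nmulH ℓ hamd).mul (CuspForm.discriminant.holo'.pow (k * ℓ))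
  · intro γ hγ
    rw [slash_mul_discriminant_pow]
    have : f ∣[(0 : ℤ)] γ = f := by
      funext z
      rw [wh_slash_zero_apply, hf]
      simp only
      obtain ⟨h', hh', hz⟩ := nmulH_smul_Gamma N ℓ γ hγ
      rw [hz z]
      exact invariant_of_isMF_mul hk h' hh' _
    rw [this]
  · intro g
    rw [slash_mul_discriminant_pow]
    obtain ⟨γ', α, δ, β, hα, hδ, hαδ, -, -, hj⟩ := conj_hermite ℓ g
    have hfun : (f ∣[(0 : ℤ)] g) * discriminant ^ (k * ℓ) =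
        fun z : ℍ => (a ∣[(0 : ℤ)] γ') (affH α δ β hα hδ z) * discriminant z ^ (k * ℓ) := by
      funext z
      simp only [Pi.mul_apply, Pi.pow_apply]
      rw [wh_slash_zero_apply, wh_slash_zero_apply, hf]
      simp only
      rw [hj z]
    rw [hfun]
    apply isBounded_comp_affH_mul (k := k)
    · have := hk.bdd γ'
      rwa [slash_mul_discriminant_pow] at this
    · calc α * k ≤ ℓ * k := by
            apply Nat.mul_le_mul_right
            rw [← hαδ]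
            exact Nat.le_mul_of_pos_right α hδ
        _ = k * ℓ := mul_comm _ _
        _ ≤ k * ℓ * δ := Nat.le_mul_of_pos_right _ hδ

/-- lowering the level: weakly holomorphic of some level `M` and `Γ(N)`-invariant ⇒ level `N` -/
theorem isWH_of_invariant (M N : ℕ) {A : ℍ → ℂ} (hA : IsWH M A)
    (hinv : ∀ γ ∈ Gamma N, ∀ z : ℍ, A (γ • z) = A z) : IsWH N A := by
  obtain ⟨k, hk⟩ := hA
  refine ⟨k, hk.holo, ?_, hk.bdd⟩
  intro γ hγ
  rw [slash_mul_discriminant_pow]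
  have : A ∣[(0 : ℤ)] γ = A := by
    funext z
    rw [wh_slash_zero_apply, hinv γ hγ z]
  rw [this]

/-! ### the product over the cosets -/

/-- **LE-D.** The product over the cosets. -/
theorem prodWH (N : ℕ) [NeZero N] (ℓ : ℕ) [NeZero ℓ] {X : Type} [Fintype X]
    (γ : X → Gamma0 N) (hγ : IsReps N ℓ γ) (a : WH N) (ha_inv : ∀ g ∈ Gamma0 N, g • a = a) :
    ∃ A : WH N, (∀ g ∈ Gamma0 N, g • A = A) ∧ (a ≠ 0 → A ≠ 0) ∧
      (∀ z : ℍ, (A : ℍ → ℂ) z =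
        ∏ x, (a : ℍ → ℂ) (nmulH ℓ (((γ x : Gamma0 N) : SL(2, ℤ)) • z))) := by
  classical
  -- `a` is `Γ₀(N)`-invariant as a function
  have hainv : ∀ g ∈ Gamma0 N, ∀ z : ℍ, (a : ℍ → ℂ) (g • z) = (a : ℍ → ℂ) z := by
    intro g hg z
    have h1 := ha_inv g⁻¹ (inv_mem hg)
    have h2 := wh_smul_apply g⁻¹ a z
    rw [h1, inv_inv] at h2
    exact h2.symm
  -- the element `a(ℓ z)` of `WH (N ℓ)`
  obtain ⟨aℓ, haℓ⟩ : ∃ aℓ : WH (N * ℓ), aℓ = ⟨fun z => (a : ℍ → ℂ) (nmulH ℓ z),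
      isWH_comp_nmulH N ℓ a.2⟩ := ⟨_, rfl⟩
  have haℓz : ∀ z : ℍ, (aℓ : ℍ → ℂ) z = (a : ℍ → ℂ) (nmulH ℓ z) := by
    intro z
    rw [haℓ]
  -- `a(ℓ z)` is `Γ₀(N ℓ)`-invariant
  have haℓinv : ∀ h ∈ Gamma0 (N * ℓ), ∀ z : ℍ, (aℓ : ℍ → ℂ) (h • z) = (aℓ : ℍ → ℂ) z := by
    intro h hh z
    obtain ⟨h', hh', hz⟩ := nmulH_smul_Gamma0 N ℓ h hh
    rw [haℓz, haℓz, hz z, hainv h' hh']
  -- the product
  obtain ⟨A', hA'⟩ : ∃ A' : WH (N * ℓ), A' = ∏ x, (((γ x : Gamma0 N) : SL(2, ℤ))⁻¹ • aℓ) :=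
    ⟨_, rfl⟩
  have hA'z : ∀ z : ℍ, (A' : ℍ → ℂ) z =
      ∏ x, (a : ℍ → ℂ) (nmulH ℓ (((γ x : Gamma0 N) : SL(2, ℤ)) • z)) := by
    intro z
    rw [hA', SubmonoidClass.coe_finsetProd, Finset.prod_apply]
    refine Finset.prod_congr rfl fun x _ => ?_
    rw [wh_smul_apply, inv_inv, haℓz]
  have hA'z' : ∀ z : ℍ, (A' : ℍ → ℂ) z =
      ∏ x, (aℓ : ℍ → ℂ) (((γ x : Gamma0 N) : SL(2, ℤ)) • z) := by
    intro z
    rw [hA'z]
    refine Finset.prod_congr rfl fun x _ => ?_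
    rw [haℓz]
  -- membership in `Γ₀(N ℓ)` from `IsReps`
  have hmem : ∀ g : Gamma0 N, (((N * ℓ : ℕ) : ℤ) ∣ ((g : Gamma0 N) : SL(2, ℤ)) 1 0) →
      ((g : Gamma0 N) : SL(2, ℤ)) ∈ Gamma0 (N * ℓ) := by
    intro g hg
    rw [Gamma0_mem]
    exact (ZMod.intCast_zmod_eq_zero_iff_dvd _ _).mpr hg
  have hmem' : ∀ g : Gamma0 N, ((g : Gamma0 N) : SL(2, ℤ)) ∈ Gamma0 (N * ℓ) →
      (((N * ℓ : ℕ) : ℤ) ∣ ((g : Gamma0 N) : SL(2, ℤ)) 1 0) := by
    intro g hg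
    rw [Gamma0_mem] at hg
    exact (ZMod.intCast_zmod_eq_zero_iff_dvd _ _).mp hg
  -- invariance under `Γ₀(N)`
  have hA'inv : ∀ g ∈ Gamma0 N, ∀ z : ℍ, (A' : ℍ → ℂ) (g • z) = (A' : ℍ → ℂ) z := by
    intro g hg z
    obtain ⟨g₀, hg₀⟩ : ∃ g₀ : Gamma0 N, ((g₀ : Gamma0 N) : SL(2, ℤ)) = g := ⟨⟨g, hg⟩, rfl⟩
    -- the permutation
    have hex : ∀ x : X, ∃ y : X,
        (((N * ℓ : ℕ) : ℤ) ∣ (((γ x * g₀) * (γ y)⁻¹ : Gamma0 N) : SL(2, ℤ)) 1 0) :=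
      fun x => (hγ (γ x * g₀)).exists
    choose σ hσ using hex
    have hσinj : Function.Injective σ := by
      intro x x' hxx'
      have h1 := hmem _ (hσ x)
      have h2 := hmem _ (hσ x')
      rw [← hxx'] at h2
      have h3 : (((γ x * (γ x')⁻¹ : Gamma0 N) : Gamma0 N) : SL(2, ℤ)) ∈ Gamma0 (N * ℓ) := by
        have e : (γ x * (γ x')⁻¹ : Gamma0 N) =
            ((γ x * g₀) * (γ (σ x))⁻¹) * ((γ x' * g₀) * (γ (σ x))⁻¹)⁻¹ := by group
        rw [e, Subgroup.coe_mul, Subgroup.coe_inv]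
        exact mul_mem h1 (inv_mem h2)
      have h4 : (((N * ℓ : ℕ) : ℤ) ∣ (((γ x * (γ x)⁻¹ : Gamma0 N) : Gamma0 N) : SL(2, ℤ)) 1 0) := by
        rw [mul_inv_cancel]
        simp
      exact (hγ (γ x)).unique h4 (hmem' _ h3)
    have hσbij : Function.Bijective σ := Finite.injective_iff_bijective.mp hσinj
    rw [hA'z', hA'z']
    rw [← hσbij.prod_comp (fun y => (aℓ : ℍ → ℂ) (((γ y : Gamma0 N) : SL(2, ℤ)) • z))]
    refine Finset.prod_congr rfl fun x _ => ?_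
    have h1 := hmem _ (hσ x)
    have e : ((γ x : Gamma0 N) : SL(2, ℤ)) • (g • z) =
        ((((γ x * g₀) * (γ (σ x))⁻¹ : Gamma0 N) : Gamma0 N) : SL(2, ℤ)) •
          (((γ (σ x) : Gamma0 N) : SL(2, ℤ)) • z) := by
      rw [← mul_smul, ← mul_smul, ← hg₀]
      congr 1
      simp only [Subgroup.coe_mul, Subgroup.coe_inv]
      group
    rw [e, haℓinv _ h1]
  -- the element of `WH N`
  have hA'N : IsWH N (A' : ℍ → ℂ) :=
    isWH_of_invariant (N * ℓ) N A'.2 fun g hg z => by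
      refine hA'inv g ?_ z
      rw [Gamma_mem] at hg
      rw [Gamma0_mem]
      exact hg.2.2.1
  refine ⟨⟨(A' : ℍ → ℂ), hA'N⟩, ?_, ?_, ?_⟩
  · intro g hg
    apply Subtype.ext
    funext z
    rw [wh_smul_apply]
    exact hA'inv g⁻¹ (inv_mem hg) z
  · intro ha0 hA0
    have hA'0 : A' = 0 := by
      apply Subtype.ext
      have := congrArg (fun A : WH N => (A : ℍ → ℂ)) hA0
      exact this
    rw [hA', Finset.prod_eq_zero_iff] at hA'0
    obtain ⟨x, -, hx⟩ := hA'0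
    have haℓ0 : aℓ = 0 := by
      have h1 : (((γ x : Gamma0 N) : SL(2, ℤ))⁻¹ • aℓ) =
          (((γ x : Gamma0 N) : SL(2, ℤ))⁻¹ • (0 : WH (N * ℓ))) := by
        rw [hx, smul_zero]
      exact MulAction.injective _ h1
    apply ha0
    apply Subtype.ext
    funext w
    have hℓpos : (0 : ℝ) < (ℓ : ℝ) := Nat.cast_pos.mpr (Nat.pos_of_ne_zero (NeZero.ne ℓ))
    have hℓC : (ℓ : ℂ) ≠ 0 := Nat.cast_ne_zero.mpr (NeZero.ne ℓ)
    have him : 0 < ((w : ℂ) / (ℓ : ℂ)).im := by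
      have : ((w : ℂ) / (ℓ : ℂ)).im = w.im / ℓ := by
        rw [show ((ℓ : ℂ)) = (((ℓ : ℝ)) : ℂ) by simp, Complex.div_ofReal_im]
        rfl
      rw [this]
      exact div_pos w.im_pos hℓpos
    have hw : nmulH ℓ ⟨(w : ℂ) / (ℓ : ℂ), him⟩ = w := by
      apply UpperHalfPlane.ext
      rw [coe_nmulH]
      show (ℓ : ℂ) * ((w : ℂ) / (ℓ : ℂ)) = (w : ℂ)
      field_simp
    have h2 := haℓz ⟨(w : ℂ) / (ℓ : ℂ), him⟩
    rw [hw, haℓ0] at h2
    exact h2.symm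
  · intro z
    exact hA'z z

end Fermat.Agent.LatE
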