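/-
Layer E, piece LE-C (helper3): the Hecke correspondence on functions, `Norm_α (β f)`, is the
product over the cosets `Γ₀(Nℓ) \ Γ₀(N)`:  for `f = a / b` (`a, b ∈ WH N`, `Γ₀(N)`-invariant),
`Norm_α (β f) = A / B` with `A(z) = ∏_x a(ℓ·γ_x z)`, `B(z) = ∏_x b(ℓ·γ_x z)`.

Assembly of
* LE-D (helper9, `ProdWH.lean`): `A, B ∈ WH N`, `Γ₀(N)`-invariant;
* LE-C1 (helper7, `BetaExp.lean`): `ιF (β f) · b(ℓ z) = a(ℓ z)` and the descent along `α`;
* LE-C3 (helper27, `CardReps.lean`): `#X = [F_{Nℓ} : F_N]`;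
* the twists `embF (twist (expInf) (γ x)⁻¹)` of the expansion at `i∞` at level `Nℓ` are all the
  embeddings of `F_{Nℓ}` over `F_N` (S24lib `Embed.lean`, helper29's `nc_norm_eq_prod`).
Helper lemmas are prefixed `np_`.
-/
import Mathlib
import Fermat.Agent.LatE.Defs
import Fermat.Agent.LatE.ProdWH
import Fermat.Agent.LatE.BetaExp
import Fermat.Agent.LatE.CardReps
import Fermat.Agent.S37lib.NormConj
import Fermat.Agent.HeckeBar.ModDeg
import Fermat.Agent.HeckeBar.GenBasic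

set_option autoImplicit false
open scoped MatrixGroups ModularForm Manifold Topology TensorProduct
open UpperHalfPlane ModularForm CongruenceSubgroup Filter AlgebraicCurve ModularCurve
open Fermat.Agent.S24lib Fermat.Agent.AJlib Fermat.Agent.S22lib

namespace Fermat.Agent.LatE

open Fermat.Agent.GalRep Fermat.Agent.HeckeBar Fermat.Agent.S37lib

section

variable (N ℓ : ℕ) [NeZero N] [NeZero ℓ]

/-- the conjugate expansions at level `Nℓ` -/
noncomputable def npSig (g : SL(2, ℤ)) : FF (N * ℓ) →+* LaurentSeries ℂ :=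
  embF (N * ℓ) (twist (N * ℓ) (expInf (N * ℓ)) g)
    (twist_injective (N * ℓ) (expInf_injective (N * ℓ)) g)

/-- the expansion at `i∞` at level `Nℓ`, restricted to `F_N` -/
noncomputable def npSig₀ : FF N →+* LaurentSeries ℂ :=
  (embF (N * ℓ) (expInf (N * ℓ)) (expInf_injective (N * ℓ))).comp
    (heckeAlphaBar Kbar N ℓ).toRingHom

theorem np_sig_alpha (g : SL(2, ℤ)) (hg : g ∈ Gamma0 N) (y : FF N) :
    npSig N ℓ g (heckeAlphaBar Kbar N ℓ y) = npSig₀ N ℓ y := by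
  unfold npSig npSig₀
  rw [nc_embF_twist_alpha N ℓ g hg y, RingHom.comp_apply, nc_embF_expInf]
  simp only [AlgHom.toRingHom_eq_coe, RingHom.coe_coe, coe_heckeAlphaBar]

theorem np_sig_injective {X : Type} (γ : X → Gamma0 N) (hγ : IsReps N ℓ γ) :
    Function.Injective fun x : X => npSig N ℓ (((γ x : Gamma0 N) : SL(2, ℤ))⁻¹) := by
  intro x y hxy
  have h1 := embF_twist_injective (N * ℓ) (expInf_injective (N * ℓ)) _ _ hxy
  rw [inv_inv] at h1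
  exact isReps_eq_of_mem N ℓ γ hγ x y h1

/-- the norm from `F_{Nℓ}` to `F_N` is the product over the cosets -/
theorem np_norm_prod {X : Type} [Fintype X] (γ : X → Gamma0 N) (hγ : IsReps N ℓ γ)
    (y : FF (N * ℓ)) :
    letI := algebraAlong (heckeAlphaBar Kbar N ℓ)
    npSig₀ N ℓ (Algebra.norm (FF N) y) =
      ∏ x, npSig N ℓ (((γ x : Gamma0 N) : SL(2, ℤ))⁻¹) y := by
  letI := algebraAlong (heckeAlphaBar Kbar N ℓ)
  have hfd := fin_ffData (N * ℓ)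
  have hfin : Module.Finite (FF N) (FF (N * ℓ)) :=
    gen_finiteAlong (heckeAlphaBar Kbar N ℓ) (transcendental_jF N) (x' := jF (N * ℓ))
  have hsep : Algebra.IsSeparable (FF N) (FF (N * ℓ)) :=
    gen_separableAlong (heckeAlphaBar Kbar N ℓ) (transcendental_jF N) (x' := jF (N * ℓ))
  exact nc_norm_eq_prod (npSig₀ N ℓ) (fun x => npSig N ℓ (((γ x : Gamma0 N) : SL(2, ℤ))⁻¹))
    (fun x y' => np_sig_alpha N ℓ _ (inv_mem (γ x).2) y') (np_sig_injective N ℓ γ hγ)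
    (card_reps_eq_finrank' N ℓ γ hγ) y

end

/-- `Γ(M) ≤ Γ(N)` for `N ∣ M` -/
theorem np_Gamma_le {N M : ℕ} (h : N ∣ M) : Gamma M ≤ Gamma N := by
  intro γ hγ
  rw [Gamma_mem] at hγ ⊢
  have key : ∀ x y : ℤ, ((x : ZMod M)) = (y : ZMod M) → ((x : ZMod N)) = (y : ZMod N) := by
    intro x y hxy
    rw [ZMod.intCast_eq_intCast_iff_dvd_sub] at hxy ⊢
    exact (Int.natCast_dvd_natCast.2 h).trans hxy
  refine ⟨?_, ?_, ?_, ?_⟩
  · simpa using key (γ 0 0) 1 (by simpa using hγ.1)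
  · simpa using key (γ 0 1) 0 (by simpa using hγ.2.1)
  · simpa using key (γ 1 0) 0 (by simpa using hγ.2.2.1)
  · simpa using key (γ 1 1) 1 (by simpa using hγ.2.2.2)

theorem np_isWH_mono {N M : ℕ} (h : N ∣ M) {F : ℍ → ℂ} (hF : IsWH N F) : IsWH M F := by
  obtain ⟨k, hk⟩ := hF
  exact ⟨k, hk.mono (np_Gamma_le h)⟩

set_option linter.unusedVariables false in
/-- **LE-C + LE-D**: the norm is the product over the cosets. -/
theorem norm_eq_prod (N : ℕ) [NeZero N] (ℓ : ℕ) [NeZero ℓ] (hℓ : ℓ.Prime) {X : Type} [Fintype X]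
    (γ : X → Gamma0 N) (hγ : IsReps N ℓ γ)
    (f : FF N) (a b : WH N) (hb : b ≠ 0) (ha_inv : ∀ g ∈ Gamma0 N, g • a = a)
    (hb_inv : ∀ g ∈ Gamma0 N, g • b = b)
    (hf : ιF N f * algebraMap (WH N) (MF N) b = algebraMap (WH N) (MF N) a) :
    ∃ A B : WH N, B ≠ 0 ∧ (∀ g ∈ Gamma0 N, g • A = A) ∧ (∀ g ∈ Gamma0 N, g • B = B) ∧
      (∀ z : ℍ, (A : ℍ → ℂ) z = ∏ x, (a : ℍ → ℂ) (nmulH ℓ (((γ x : Gamma0 N) : SL(2, ℤ)) • z))) ∧
      (∀ z : ℍ, (B : ℍ → ℂ) z = ∏ x, (b : ℍ → ℂ) (nmulH ℓ (((γ x : Gamma0 N) : SL(2, ℤ)) • z))) ∧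
      ιF N (normBeta N ℓ f) * algebraMap (WH N) (MF N) B = algebraMap (WH N) (MF N) A := by
  classical
  obtain ⟨A, hAinv, -, hA⟩ := prodWH N ℓ γ hγ a ha_inv
  obtain ⟨B, hBinv, hB0, hB⟩ := prodWH N ℓ γ hγ b hb_inv
  refine ⟨A, B, hB0 hb, hAinv, hBinv, hA, hB, ?_⟩
  -- the objects at level `Nℓ`
  let A' : WH (N * ℓ) := ⟨(A : ℍ → ℂ), np_isWH_mono (dvd_mul_right N ℓ) A.2⟩
  let B' : WH (N * ℓ) := ⟨(B : ℍ → ℂ), np_isWH_mono (dvd_mul_right N ℓ) B.2⟩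
  let a' : WH (N * ℓ) := ⟨fun z => (a : ℍ → ℂ) (nmulH ℓ z), isWH_comp_nmulH N ℓ a.2⟩
  let b' : WH (N * ℓ) := ⟨fun z => (b : ℍ → ℂ) (nmulH ℓ z), isWH_comp_nmulH N ℓ b.2⟩
  have hβ : ιF (N * ℓ) (heckeBetaBar Kbar N ℓ f) * algebraMap (WH (N * ℓ)) (MF (N * ℓ)) b' =
      algebraMap (WH (N * ℓ)) (MF (N * ℓ)) a' :=
    iotaF_heckeBetaBar N ℓ f a b hf a' b' (fun _ => rfl) (fun _ => rfl)
  have hA' : A' = ∏ x, (((γ x : Gamma0 N) : SL(2, ℤ))⁻¹) • a' := by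
    apply Subtype.ext
    funext z
    rw [SubmonoidClass.coe_finsetProd, Finset.prod_apply]
    show (A : ℍ → ℂ) z = _
    rw [hA z]
    refine Finset.prod_congr rfl fun x _ => ?_
    rw [wh_smul_apply, inv_inv]
  have hB' : B' = ∏ x, (((γ x : Gamma0 N) : SL(2, ℤ))⁻¹) • b' := by
    apply Subtype.ext
    funext z
    rw [SubmonoidClass.coe_finsetProd, Finset.prod_apply]
    show (B : ℍ → ℂ) z = _
    rw [hB z]
    refine Finset.prod_congr rfl fun x _ => ?_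
    rw [wh_smul_apply, inv_inv]
  apply iotaF_of_heckeAlphaBar N ℓ (normBeta N ℓ f) A B A' B' (fun _ => rfl) (fun _ => rfl)
  apply (liftMF (N * ℓ) (expInf (N * ℓ)) (expInf_injective (N * ℓ))).injective
  rw [map_mul, liftMF_algebraMap, liftMF_algebraMap]
  have h1 : liftMF (N * ℓ) (expInf (N * ℓ)) (expInf_injective (N * ℓ))
      (ιF (N * ℓ) (heckeAlphaBar Kbar N ℓ (normBeta N ℓ f))) =
      ∏ x, npSig N ℓ (((γ x : Gamma0 N) : SL(2, ℤ))⁻¹) (heckeBetaBar Kbar N ℓ f) :=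
    np_norm_prod N ℓ γ hγ (heckeBetaBar Kbar N ℓ f)
  rw [h1, hA', hB', map_prod, map_prod, ← Finset.prod_mul_distrib]
  refine Finset.prod_congr rfl fun x _ => ?_
  have h2 := embF_of_ιF_mul (N * ℓ) (twist (N * ℓ) (expInf (N * ℓ))
    (((γ x : Gamma0 N) : SL(2, ℤ))⁻¹)) (twist_injective (N * ℓ) (expInf_injective (N * ℓ)) _)
    (heckeBetaBar Kbar N ℓ f) a' b' hβ
  rw [twist_apply, twist_apply] at h2
  exact h2

end Fermat.Agent.LatE
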