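import Mathlib
import Fermat.Agent.LatE.LatStatementOf
import Fermat.Agent.LatE.FormL
import Fermat.Agent.LatE.FormLMul
import Fermat.Agent.LatE.LatCharOne
import Fermat.Agent.LatE.NormProd

/-!
# Layer E, final wiring: `LatStatement` unconditionally

Form L (pieces LE-E: `hasTorsionChar_*`, `latChar_eq_one_iff`) and the norm-product formula
(LE-C `norm_eq_prod`) are plugged into `latStatement_of_formL_normProd`.
-/

set_option autoImplicit false
open scoped MatrixGroups ModularForm Manifold Topology TensorProduct
open UpperHalfPlane ModularForm CongruenceSubgroup Filter AlgebraicCurve ModularCurve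
open Fermat.Agent.S24lib Fermat.Agent.AJlib Fermat.Agent.S22lib

namespace Fermat.Agent.LatE

open Fermat.Agent.GalRep

/-- Form L at every level, assembled from the landed LE-E pieces. -/
theorem formL_of_pieces (N : ℕ) [NeZero N] : FormL N where
  exists_char := fun n hn x hx => hasTorsionChar_exists N n hn x hx
  surj := fun n hn φ => hasTorsionChar_surj N n hn φ
  unique := fun n hn x χ χ' h h' => hasTorsionChar_unique N n hn x χ χ' h h'
  add := fun n hn x y χ χ' h h' => hasTorsionChar_add N n hn x y χ χ' h h'
  eq_zero := fun n hn x h => hasTorsionChar_eq_zero N n hn x h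
  mul := fun n m hn hm x χ h => hasTorsionChar_mul N n m hn hm x χ h
  eq_one_iff := fun n hn φ => latChar_eq_one_iff N n hn φ

/-- The norm-product formula for every family of representatives (LE-C). -/
theorem normProdFor_of_isReps (N ℓ : ℕ) [NeZero N] [NeZero ℓ] (hℓ : ℓ.Prime) {X : Type}
    [Fintype X] (γ : X → Gamma0 N) (hγ : IsReps N ℓ γ) : NormProdFor N ℓ γ :=
  fun f a b hb ha_inv hb_inv hf => norm_eq_prod N ℓ hℓ γ hγ f a b hb ha_inv hb_inv hf

/-- **Layer E**: the Hecke-equivariant lattice statement (Form L) holds. -/
theorem latStatement : LatStatement :=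
  latStatement_of_formL_normProd (fun N _ => formL_of_pieces N)
    (fun N ℓ _ _ hℓ _ _ γ hγ => normProdFor_of_isReps N ℓ hℓ γ hγ)

end Fermat.Agent.LatE
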