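/-
Layer E, piece LE-E (= T2 of item 69), final wiring: `formL N : FormL N`.  (helper22, helper9)
-/
import Mathlib
import Fermat.Agent.LatE.Final
import Fermat.Agent.LatE.FormL
import Fermat.Agent.LatE.FormLMul
import Fermat.Agent.LatE.LatCharOne

set_option autoImplicit false
open scoped MatrixGroups ModularForm Manifold Topology TensorProduct
open UpperHalfPlane ModularForm CongruenceSubgroup Filter AlgebraicCurve ModularCurve
open Fermat.Agent.S24lib Fermat.Agent.AJlib Fermat.Agent.S22lib

namespace Fermat.Agent.LatE

open Fermat.Agent.GalRep

/-- **Form L** (LE-E): the torsion of `J₀(N)` is described by the characters of the lattice. -/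
theorem formL (N : ℕ) [NeZero N] : FormL N where
  exists_char := fun n hn x hx => hasTorsionChar_exists N n hn x hx
  surj := fun n hn φ => hasTorsionChar_surj N n hn φ
  unique := fun n hn x χ χ' h h' => hasTorsionChar_unique N n hn x χ χ' h h'
  add := fun n hn x y χ χ' h h' => hasTorsionChar_add N n hn x y χ χ' h h'
  eq_zero := fun n hn x h => hasTorsionChar_eq_zero N n hn x h
  mul := fun n m hn hm x χ h => hasTorsionChar_mul N n m hn hm x χ h
  eq_one_iff := fun n hn φ => latChar_eq_one_iff N n hn φ

end Fermat.Agent.LatE
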